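import Fermat.Agent.S55.B.Recip.Hyp
import Fermat.Agent.S55.B.URAbs
import Fermat.Agent.S55.B.UR
import Fermat.Agent.S55.B.Hasse
import Fermat.Agent.S55.Coh.Flat
import Fermat.Agent.S55.Places.UnramQuot
import Fermat.Agent.S55.Places.Transitive

/-!
# S55 (B/Recip), task S55/R-UR: classes of `H²(G_S, μ_p)` are locally trivial outside `S`.

`l ∉ S` (so `l ≠ p`), `D = D_l`, `D' = D ⊓ ker ω`, `ω = cycloChar p`.
1. `[D : D']` divides `p - 1`, so `res : H²(D, μ) → H²(D', μ)` is injective (`Pair.resLE_injective2`); it suffices to show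
   `res_{D'} (infl z) = 0`  (`ur_ker`).
2. Represent `z` by a normalised cocycle `z₀` (`H2.exists_normalised`), right invariant under a NORMAL `(LS S)`-open
   `N₀ ≤ ker ω` (`IsLevel₂.exists_normal`, intersect with `ker ω`, which is `(LS S)`-open:
   `LS_isOpen_ker_cycloChar`).  `N₀ ⊇ E.fixingSubgroup`, `E` unramified outside `S`, so `I_l ≤ N₀`
   (`inertia_le_of_isOpen_LS`; `padicPlace_liesOverPrime`).
3. `W = D'` is open in `D_l`, `N = W ⊓ N₀` is open in `W` and contains `W ⊓ I_l`: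
   `exists_unramified_refinement` with `m = p` gives `N' ≤ N`, `s`, `f`, `f'`; `N`, `N'` are normal in `W`
   (`conj_mem_of_inertia_le`).
4. `B.ur_abstract` on the group `↥W` (trivial action since `W ≤ ker ω`: `mu_apply`), with the subgroups
   `N.subgroupOf W`, `N'.subgroupOf W`: `z₀|W = d1 y`, `y` right `N'`-invariant, hence a level cochain.
-/

set_option autoImplicit false

noncomputable section

namespace Fermat.Agent.S55.Recip

open Places ExtCitation Module

variable {p : ℕ} [Fact p.Prime]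

theorem inertia_le_of_isOpen_LS {S : Finset Nat.Primes} {N : Subgroup GQ} (hN : (LS S).IsOpen N)
    (l : ℕ) [Fact l.Prime] (hl : ∀ q ∈ S, (q : ℕ) ≠ l) : Iq l ≤ N := by
  intro x hx
  let q : Nat.Primes := ⟨l, Fact.out⟩
  have hq : q ∉ S := fun h => hl _ h rfl
  exact B.Ig_le_of_isOpen hN hq 1 ((B.mem_Ig_iff q 1).2 (by simpa using hx))

theorem isOpenIn_inf_of_isOpen {N : Subgroup GQ} (hN : Lall.IsOpen N) (W : Subgroup GQ) :
    IsOpenIn W (W ⊓ N) := B.isOpenIn_inf_of_isOpen W hN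

/-- step 2-4 -/
theorem ur_ker {S : Finset Nat.Primes} (hpS : pPrime p ∈ S) (l : Nat.Primes) (hl : l ∉ S)
    (z : H2 (LS S) (mu p)) :
    (Pair.res Lall (mu p) (DqP l ⊓ (cycloChar p).ker)).map2
      ((Pair.infl LS_le_Lall (mu p)).map2 z) = 0 := by
  have : Fact (l : ℕ).Prime := ⟨l.2⟩
  obtain ⟨z₀, rfl, hz1, -⟩ := H2.exists_normalised z
  obtain ⟨hcoc, hlev⟩ := mem_Z2.mp z₀.2
  obtain ⟨N₁, hN₁, -, -, hlev₁, -⟩ := hlev.exists_normal
  set W : Subgroup GQ := DqP l ⊓ (cycloChar p).ker with hWdef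
  have hW : IsOpenIn (Dq (l : ℕ)) W := isOpenIn_inf_of_isOpen isOpen_ker_cycloChar (Dq (l : ℕ))
  have hN : IsOpenIn W (W ⊓ N₁) := isOpenIn_inf_of_isOpen (LS_le_Lall N₁ hN₁) W
  have hIN₁ : Iq (l : ℕ) ≤ N₁ := inertia_le_of_isOpen_LS hN₁ (l : ℕ) (fun q hq h => hl (by
    have : q = l := Subtype.ext h
    rwa [← this]))
  have hI : W ⊓ Iq (l : ℕ) ≤ W ⊓ N₁ := inf_le_inf_left _ hIN₁
  have htriv : ∀ (a : ↥W) (x : ZMod p), mu p (a : GQ) x = x :=
    fun a x => B.mu_apply_of_mem_ker p a.2.2 x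
  obtain ⟨N', y, hN', -, hy1, -, hy3⟩ := B.UR_std p hW hN hI
    (fun x : ↥W × ↥W => (z₀ : GQ × GQ → ZMod p) ((x.1 : GQ), (x.2 : GQ)))
    (fun a b c => by
      have h := hcoc (a : GQ) (b : GQ) (c : GQ)
      rw [htriv a] at h
      exact h)
    (fun a b n m hn hm => hlev₁ (a : GQ) (b : GQ) (n : GQ) hn.2 (m : GQ) hm.2)
    (hz1 1)
  rw [Pair.map2_mk, Pair.map2_mk, H2.mk_eq_zero_iff]
  refine ⟨y, B.isLevel₁_of_isOpenIn hN' hy1, fun a b => ?_⟩
  have h := hy3 a b
  have h2 : rsub (mu p) W a (y b) = y b := htriv a (y b)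
  rw [h2, ← h]
  rfl

/-- step 1 -/
theorem res_eq_zero_of_res_ker (W : Subgroup GQ) (y : H2 Lall (mu p))
    (h : (Pair.res Lall (mu p) (W ⊓ (cycloChar p).ker)).map2 y = 0) :
    (Pair.res Lall (mu p) W).map2 y = 0 := by
  have hle : W ⊓ (cycloChar p).ker ≤ W := inf_le_left
  rw [← Pair.resLE_res_map2 Lall (mu p) hle] at h
  refine (map_eq_zero_iff _ (Pair.resLE_injective2 Lall (mu p) hle ?_ ?_)).1 h
  · exact (B.isOpen_sub_subgroupOf_iff hle).2 (isOpenIn_inf_of_isOpen isOpen_ker_cycloChar W)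
  · rw [Subgroup.inf_subgroupOf_left]
    have h1 : ((cycloChar p).ker.subgroupOf W).index ∣ p - 1 :=
      (Subgroup.relIndex_dvd_index_of_normal (cycloChar p).ker W).trans index_ker_cycloChar_dvd
    have hp : p.Prime := Fact.out
    have h2 : Nat.Coprime ((cycloChar p).ker.subgroupOf W).index p := by
      refine Nat.Coprime.coprime_dvd_left h1 ?_
      rw [Nat.coprime_comm, Nat.Prime.coprime_iff_not_dvd hp]
      intro hd
      have := Nat.le_of_dvd (by have := hp.two_le; omega) hd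
      have := hp.two_le
      omega
    exact (ZMod.isUnit_iff_coprime _ _).2 h2

theorem urHyp {S : Finset Nat.Primes} (hpS : pPrime p ∈ S) : URHyp p S :=
  fun l hl z => res_eq_zero_of_res_ker _ _ (ur_ker hpS l hl z)

end Fermat.Agent.S55.Recip

end
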