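import Fermat.Agent.S55.B.Recip.Main
import Fermat.Agent.S55.B.Recip.UR
import Fermat.Agent.S55.Z.TargetL
import Fermat.Agent.S55.L.BridgeNorm

/-!
# S55 (B/Recip): the reciprocity law from `G.LocalNormIndexFix p` only.
-/

set_option autoImplicit false

noncomputable section

namespace Fermat.Agent.S55.Recip

open Places ExtCitation Module

variable {p : ℕ} [Fact p.Prime]

theorem hasseHyp (hL : G.LocalNormIndexFix p) (hp2 : p ≠ 2) : HasseHyp p :=
  fun U hU x hx => hasse_principle hL hp2 U hU x hx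

theorem lineHyp (hp2 : p ≠ 2) : LineHyp p := fun l =>
  haveI : Fact (l : ℕ).Prime := ⟨l.2⟩
  loc_finrank_H2_mu (p := p) (q := (l : ℕ)) hp2

theorem killHyp (hp2 : p ≠ 2) : KillHyp p := by
  intro l N hN hNo hidx x
  haveI : Fact (l : ℕ).Prime := ⟨l.2⟩
  exact @LocalDatum.res_eq_zero_of_index_p p _ _ _ _ (locDatum p (l : ℕ)) hp2 N hN hNo hidx x

/-- (G1) -/
theorem glob_recip_of (hL : G.LocalNormIndexFix p) (hp2 : p ≠ 2) (S : Finset Nat.Primes)
    (hpS : pPrime p ∈ S) :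
    ∃ lam : ∀ v : ↥S, H2 (Lall.sub (DqP v.1)) (rsub (mu p) (DqP v.1)) ≃ₗ[ZMod p] ZMod p,
      ∀ z : H2 (LS S) (mu p), ∑ v, lam v (((arithDatum p S hpS).loc v (mu p)).map2 z) = 0 :=
  recip hp2 S hpS (hasseHyp hL hp2) (urHyp hpS) (lineHyp hp2) (killHyp hp2)

/-- (G1), hypothesis free -/
theorem glob_recip (hp2 : p ≠ 2) (S : Finset Nat.Primes) (hpS : pPrime p ∈ S) :
    ∃ lam : ∀ v : ↥S, H2 (Lall.sub (DqP v.1)) (rsub (mu p) (DqP v.1)) ≃ₗ[ZMod p] ZMod p,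
      ∀ z : H2 (LS S) (mu p), ∑ v, lam v (((arithDatum p S hpS).loc v (mu p)).map2 z) = 0 :=
  glob_recip_of (localNormIndexFix p) hp2 S hpS

end Fermat.Agent.S55.Recip

end
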