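import Fermat.Agent.S55.L.CycRes

/-!
# S55 (B/Recip), task S55/R-CycGen: complements on cyclic classes (abstract, [A]+[L] API only).

* `cycCl_eq_zero_iff'`: (F2c) for a NOT NECESSARILY SURJECTIVE level character `χ : H → ℤ/m`.
  The image of `χ` is `d ℤ/m`, `d ∣ m`, `m' = m/d`; `χ' g := chv χ g / d` is a surjective character to
  `ℤ/m'` with the same kernel, `chv χ g = d * chv χ' g`, hence `cyc χ b = cyc χ' b` AS COCHAINS
  (`(d a + d b)/(d m') = (a + b)/m'`), and `cycCl_eq_zero_iff` applies to `χ'`.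
* restriction of a cyclic class to an arbitrary subgroup is the cyclic class of the restricted character
  (equality of cochains).
-/

set_option autoImplicit false
set_option linter.unusedSectionVars false

noncomputable section

namespace Fermat.Agent.S55

variable {H : Type} [Group H] (L : Levels H) {A : Type} [AddCommGroup A]
variable (α : Representation ℤ H A) [Smooth L α]
variable {m : ℕ} [NeZero m] (χ : H →* Multiplicative (ZMod m)) (hχ : L.IsLevel₁ χ)

theorem isLevel₁_comp_subtype {L : Levels H} {χ : H →* Multiplicative (ZMod m)}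
    (hχ : L.IsLevel₁ χ) (V : Subgroup H) : (L.sub V).IsLevel₁ (χ.comp V.subtype) := by
  obtain ⟨U, hU, h⟩ := hχ
  exact ⟨U.subgroupOf V, Levels.IsOpen.subgroupOf hU V, fun g s hs => h g s hs⟩

theorem isLevel₁_of_le {L L' : Levels H} (h : ∀ U, L.IsOpen U → L'.IsOpen U)
    {χ : H →* Multiplicative (ZMod m)} (hχ : L.IsLevel₁ χ) : L'.IsLevel₁ χ := by
  obtain ⟨U, hU, hU'⟩ := hχ
  exact ⟨U, h U hU, hU'⟩

/-- the surjective character with the same cyclic cochains -/
theorem exists_surjective_char :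
    ∃ (m' : ℕ) (_ : NeZero m') (χ' : H →* Multiplicative (ZMod m')), Function.Surjective χ' ∧
      χ'.ker = χ.ker ∧ ∀ (b : A), cyc χ' b = cyc χ b := by
  have hm : 0 < m := Nat.pos_of_ne_zero (NeZero.ne m)
  have hcardm : Nat.card (Multiplicative (ZMod m)) = m := by
    rw [Nat.card_congr Multiplicative.toAdd, Nat.card_zmod]
  have hfin : Finite (Multiplicative (ZMod m)) := Nat.finite_of_card_ne_zero (by omega)
  obtain ⟨d, hd⟩ : Nat.card χ.range ∣ m := by
    have := Subgroup.card_subgroup_dvd_card χ.range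
    rwa [hcardm] at this
  have hm' : 0 < Nat.card χ.range := Nat.card_pos
  have hd0 : 0 < d := by
    rcases Nat.eq_zero_or_pos d with h | h
    · rw [h, mul_zero] at hd; omega
    · exact h
  generalize hm'def : Nat.card χ.range = m' at hd hm'
  have hne : NeZero m' := ⟨hm'.ne'⟩
  -- `d ∣ χ~ g`
  have hdvd : ∀ g, d ∣ chv χ g := by
    intro g
    have h1 : (⟨χ g, g, rfl⟩ : χ.range) ^ Nat.card χ.range = 1 := pow_card_eq_one'
    have h2 : (χ g) ^ m' = 1 := by
      have := congrArg Subtype.val h1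
      rw [hm'def] at this
      simpa using this
    have h3 : ((m' * chv χ g : ℕ) : ZMod m) = 0 := by
      rw [Nat.cast_mul, chv_cast, ← nsmul_eq_mul, ← toAdd_pow, h2]
      rfl
    rw [ZMod.natCast_eq_zero_iff] at h3
    exact Nat.dvd_of_mul_dvd_mul_left hm' ((dvd_of_eq hd.symm).trans h3)
  have hc : ∀ g, chv χ g = d * (chv χ g / d) := fun g => (Nat.mul_div_cancel' (hdvd g)).symm
  have hlt : ∀ g, chv χ g / d < m' := by
    intro g
    have h1 := chv_lt χ g
    rw [Nat.div_lt_iff_lt_mul hd0, ← hd]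
    exact h1
  have hcarry : ∀ g h, (chv χ g + chv χ h) / m = (chv χ g / d + chv χ h / d) / m' := by
    intro g h
    have key : ∀ n : ℕ, (d * n) / m = n / m' := fun n => by
      rw [hd, mul_comm m' d, Nat.mul_div_mul_left _ _ hd0]
    rw [← key, mul_add, ← hc, ← hc]
  have hmul : ∀ g h, chv χ (g * h) / d + m' * ((chv χ g / d + chv χ h / d) / m')
      = chv χ g / d + chv χ h / d := by
    intro g h
    have h1 := chv_mul χ g h
    rw [hcarry] at h1
    apply Nat.eq_of_mul_eq_mul_left hd0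
    rw [mul_add, mul_add, ← hc, ← hc, ← hc, ← mul_assoc, mul_comm d m', ← hd]
    exact h1
  let χ' : H →* Multiplicative (ZMod m') :=
    { toFun := fun g => Multiplicative.ofAdd ((chv χ g / d : ℕ) : ZMod m')
      map_one' := by
        have : chv χ 1 = 0 := (chv_eq_zero_iff χ 1).mpr χ.ker.one_mem
        rw [this]
        simp
      map_mul' := fun g h => by
        rw [← ofAdd_add, ← Nat.cast_add, ← hmul g h]
        simp }
  have hchv : ∀ g, chv χ' g = chv χ g / d := fun g => by
    show ((chv χ g / d : ℕ) : ZMod m').val = _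
    exact ZMod.val_natCast_of_lt (hlt g)
  have hker : χ'.ker = χ.ker := by
    ext g
    rw [← chv_eq_zero_iff, ← chv_eq_zero_iff, hchv]
    constructor
    · intro h
      rw [hc g, h, mul_zero]
    · intro h
      rw [h, Nat.zero_div]
  refine ⟨m', hne, χ', ?_, hker, fun b => ?_⟩
  · have hcardm' : Nat.card (Multiplicative (ZMod m')) = m' := by
      rw [Nat.card_congr Multiplicative.toAdd, Nat.card_zmod]
    have hfin' : Finite (Multiplicative (ZMod m')) := Nat.finite_of_card_ne_zero (by omega)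
    have h1 : Nat.card χ'.range = m' := by
      rw [← Subgroup.index_ker, hker, Subgroup.index_ker, hm'def]
    rw [← MonoidHom.range_eq_top]
    exact Subgroup.eq_top_of_card_eq _ (by rw [h1, hcardm'])
  · funext g
    rw [cyc_apply, cyc_apply, hchv, hchv, hcarry]

/-- (F2c) with the kernel given as an abstract subgroup -/
theorem cycCl_eq_zero_iff_aux (hs : Function.Surjective χ) (N : Subgroup H) (hN : L.IsOpen N)
    (hker : χ.ker = N) (h90 : Z1 (L.sub N) (rsub α N) ≤ B1 (rsub α N)) (b : ↥(H0 α)) :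
    cycCl L α χ hχ b = 0 ↔ b ∈ normSub L α N hN := by
  subst hker
  exact cycCl_eq_zero_iff L α χ hχ hs h90 b

/-- (F2c) without surjectivity -/
theorem cycCl_eq_zero_iff' (h90 : Z1 (L.sub χ.ker) (rsub α χ.ker) ≤ B1 (rsub α χ.ker))
    (b : ↥(H0 α)) :
    cycCl L α χ hχ b = 0 ↔ b ∈ normSub L α χ.ker (isOpen_ker_of_isLevel χ hχ) := by
  obtain ⟨m', _, χ', hs, hker, hcyc⟩ := exists_surjective_char (A := A) χ
  have hχ' : L.IsLevel₁ χ' :=
    (Levels.isLevel₁_monoidHom_iff χ').2 (by rw [hker]; exact isOpen_ker_of_isLevel χ hχ)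
  have heq : cycCl L α χ hχ b = cycCl L α χ' hχ' b := by
    rw [cycCl, cycCl]
    congr 1
    exact Subtype.ext (hcyc _).symm
  rw [heq]
  exact cycCl_eq_zero_iff_aux L α χ' hχ' hs χ.ker _ hker h90 b

/-- `cycCl` as an additive homomorphism -/
def cycClHom : ↥(H0 α) →+ H2 L α := AddMonoidHom.mk' (cycCl L α χ hχ) (cycCl_add L α χ hχ)

theorem cycCl_zero : cycCl L α χ hχ 0 = 0 := map_zero (cycClHom L α χ hχ)

theorem cycCl_sub (b b' : ↥(H0 α)) :
    cycCl L α χ hχ (b - b') = cycCl L α χ hχ b - cycCl L α χ hχ b' :=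
  map_sub (cycClHom L α χ hχ) b b'

theorem cycCl_nsmul (k : ℕ) (b : ↥(H0 α)) : cycCl L α χ hχ (k • b) = k • cycCl L α χ hχ b :=
  map_nsmul (cycClHom L α χ hχ) k b

theorem cycCl_zsmul (k : ℤ) (b : ↥(H0 α)) : cycCl L α χ hχ (k • b) = k • cycCl L α χ hχ b :=
  map_zsmul (cycClHom L α χ hχ) k b

/-- restriction to an arbitrary subgroup -/
theorem res_cycCl_sub (V : Subgroup H) (b : ↥(H0 α)) :
    (Pair.res L α V).map2 (cycCl L α χ hχ b) =
      cycCl (L.sub V) (rsub α V) (χ.comp V.subtype) (isLevel₁_comp_subtype hχ V)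
        ((Pair.res L α V).map0 b) := by
  rw [cycCl, Pair.map2_mk]
  rfl

/-- if `k • x = 0` and `l • x = 0` with `k, l` coprime then `x = 0` -/
theorem eq_zero_of_coprime_smul {B : Type} [AddCommGroup B] {x : B} {k l : ℕ}
    (hkl : Nat.Coprime k l) (hk : k • x = 0) (hl : l • x = 0) : x = 0 := by
  obtain ⟨u, v, huv⟩ := Nat.isCoprime_iff_coprime.mpr hkl
  have h1 : (u * (k : ℤ) + v * (l : ℤ)) • x = 0 := by
    rw [add_smul, mul_smul, mul_smul, natCast_zsmul, natCast_zsmul, hk, hl, smul_zero, smul_zero,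
      add_zero]
  rwa [huv, one_smul] at h1

end Fermat.Agent.S55

end
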