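import Fermat.Agent.S55.B.Recip.Psi
import Fermat.Agent.S55.B.Recip.CycGen
import Fermat.Agent.S55.Z.Cyclo
import Fermat.Agent.S55.Places.Cyclo
import Fermat.Agent.S55.Places.Roots

/-!
# S55 (B/Recip), task S55/R-Chi: the cyclotomic character modulo `N` and the global character
`χ_n = ψ ∘ cyc_{p^(n+1)} : GQ → ℤ/p^n` (the character of the `n`-th layer `ℚ_n` of the cyclotomic
`ℤ_p`-extension).
Tools: Mathlib `modularCyclotomicCharacter`; `Z/Cyclo.lean` (`cycloNF`, `isUnramifiedOutside_cycloNF`,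
`mem_fixingSubgroup_cycloNF_iff`); `Places/Cyclo.exists_mem_Dq_map_zeta` (the cyclotomic character is
onto on `D_p`); `Places/Roots` (`IsFrob.map_root`, `map_root_of_mem_Iq`); `Places/Galois`
(`IsOpenIn.mem_of_fixes`, `IsOpenIn.exists_numberField` for `H = ⊤`).
-/

set_option autoImplicit false

noncomputable section

namespace Fermat.Agent.S55.Recip

open Places ExtCitation

theorem exists_cycN (N : ℕ) [NeZero N] :
    ∃ c : GQ →* (ZMod N)ˣ, ∀ (g : GQ) (ζ : Qbar), ζ ^ N = 1 →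
      g ζ = ζ ^ ((c g : (ZMod N)ˣ) : ZMod N).val := ⟨ES.D.cyc N, ES.D.cyc_spec N⟩

/-- the cyclotomic character modulo `N` -/
def cycN (N : ℕ) [NeZero N] : GQ →* (ZMod N)ˣ := Classical.choose (exists_cycN N)

theorem cycN_spec (N : ℕ) [NeZero N] (g : GQ) {ζ : Qbar} (h : ζ ^ N = 1) :
    g ζ = ζ ^ ((cycN N g : (ZMod N)ˣ) : ZMod N).val := Classical.choose_spec (exists_cycN N) g ζ h

/-- uniqueness -/
theorem cycN_eq_of_forall (N : ℕ) [NeZero N] (g : GQ) (a : ℕ)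
    (h : ∀ ζ : Qbar, ζ ^ N = 1 → g ζ = ζ ^ a) : ((cycN N g : (ZMod N)ˣ) : ZMod N) = (a : ZMod N) := by
  obtain ⟨ξ, hξ⟩ := cyclo_exists_primitiveRoot N
  have h1 : ξ ^ ((cycN N g : (ZMod N)ˣ) : ZMod N).val = ξ ^ a := by
    rw [← cycN_spec N g hξ.pow_eq_one, h ξ hξ.pow_eq_one]
  rw [pow_eq_pow_mod a hξ.pow_eq_one] at h1
  have h2 := hξ.pow_inj (ZMod.val_lt _) (Nat.mod_lt a (Nat.pos_of_ne_zero (NeZero.ne N))) h1
  rw [← ZMod.natCast_zmod_val ((cycN N g : (ZMod N)ˣ) : ZMod N), h2, ZMod.natCast_mod]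

theorem cycN_eq_one_iff (N : ℕ) [NeZero N] (g : GQ) :
    cycN N g = 1 ↔ ∀ ζ : Qbar, ζ ^ N = 1 → g ζ = ζ := by
  constructor
  · intro h ζ hζ
    rw [cycN_spec N g hζ, h, Units.val_one, ZMod.val_one_eq_one_mod, ← pow_eq_pow_mod 1 hζ, pow_one]
  · intro h
    apply Units.ext
    rw [cycN_eq_of_forall N g 1 (fun ζ hζ => by rw [h ζ hζ, pow_one]), Nat.cast_one, Units.val_one]

variable (p : ℕ) [Fact p.Prime] (n : ℕ)

instance neZero_pow : NeZero (p ^ n) := ⟨pow_ne_zero _ (Fact.out : p.Prime).ne_zero⟩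

/-- the character `χ_n` -/
def chi : GQ →* Multiplicative (ZMod (p ^ n)) := (psi p n).comp (cycN (p ^ (n + 1)))

variable {p n}

theorem Chi_pow_ne_zero : p ^ (n + 1) ≠ 0 := pow_ne_zero _ (Fact.out : p.Prime).ne_zero

theorem Chi_fixingSubgroup_le_ker : (cycloNF (p ^ (n + 1))).fixingSubgroup ≤ (chi p n).ker := by
  intro g hg
  rw [mem_fixingSubgroup_cycloNF_iff, ← cycN_eq_one_iff] at hg
  rw [MonoidHom.mem_ker, chi, MonoidHom.comp_apply, hg, map_one]

theorem chi_isLevel_LS {S : Finset Nat.Primes} (hpS : pPrime p ∈ S) :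
    (LS S).IsLevel₁ (chi p n) := by
  rw [Levels.isLevel₁_monoidHom_iff]
  refine ⟨_, ⟨cycloNF (p ^ (n + 1)), isUnramifiedOutside_cycloNF _ Chi_pow_ne_zero S ?_, rfl⟩,
    Chi_fixingSubgroup_le_ker⟩
  intro q hq
  have h1 : (q : ℕ) = p :=
    (Nat.prime_dvd_prime_iff_eq q.2 Fact.out).1 (q.2.dvd_of_dvd_pow hq)
  have h2 : q = pPrime p := Subtype.ext h1
  rw [h2]
  exact hpS

theorem chi_isLevel : Lall.IsLevel₁ (chi p n) := by
  rw [Levels.isLevel₁_monoidHom_iff]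
  exact ⟨_, ⟨cycloNF (p ^ (n + 1)), finiteDimensional_cycloNF _ Chi_pow_ne_zero, rfl⟩,
    Chi_fixingSubgroup_le_ker⟩

/-- `χ_n` is already onto on the decomposition group at `p` -/
theorem chi_surjective_Dq (hp2 : p ≠ 2) (c : Multiplicative (ZMod (p ^ n))) :
    ∃ g ∈ Dq p, chi p n g = c := by
  obtain ⟨u, rfl⟩ := psi_surjective p n hp2 c
  have h1 : Nat.Coprime (u : ZMod (p ^ (n + 1))).val p :=
    (Nat.coprime_pow_right_iff (Nat.succ_pos n) _ _).1 (ZMod.val_coe_unit_coprime u)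
  obtain ⟨g, hg, h⟩ := exists_mem_Dq_map_zeta (n := n + 1) h1
  refine ⟨g, hg, ?_⟩
  have h2 : cycN (p ^ (n + 1)) g = u := by
    apply Units.ext
    rw [cycN_eq_of_forall _ g _ h, ZMod.natCast_zmod_val]
  rw [chi, MonoidHom.comp_apply, h2]

theorem chi_surjective (hp2 : p ≠ 2) : Function.Surjective (chi p n) := fun c => by
  obtain ⟨g, -, h⟩ := chi_surjective_Dq hp2 c
  exact ⟨g, h⟩

variable {q : ℕ} [Fact q.Prime]

theorem Chi_coprime (hq : q ≠ p) : Nat.Coprime (p ^ (n + 1)) q :=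
  Nat.Coprime.pow_left _ ((Nat.coprime_primes Fact.out Fact.out).2 (Ne.symm hq))

theorem chi_frob (hq : q ≠ p) {φ : GQ} (hφ : IsFrob q φ) :
    chi p n φ = Multiplicative.ofAdd (psiNat p n q) := by
  have h1 : ((cycN (p ^ (n + 1)) φ : (ZMod (p ^ (n + 1)))ˣ) : ZMod (p ^ (n + 1))) = (q : ZMod _) :=
    cycN_eq_of_forall _ φ q (fun ζ hζ => hφ.map_root (Chi_coprime hq) hζ)
  rw [psiNat_eq_of_unit _ h1]
  rfl

theorem Iq_le_ker_chi (hq : q ≠ p) : Iq q ≤ (chi p n).ker := by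
  intro g hg
  have h1 : cycN (p ^ (n + 1)) g = 1 :=
    (cycN_eq_one_iff _ g).2 (fun ζ hζ => map_root_of_mem_Iq (Chi_coprime hq) hζ hg)
  rw [MonoidHom.mem_ker, chi, MonoidHom.comp_apply, h1, map_one]

theorem Chi_isOpenIn_top : IsOpenIn ⊤ (chi p n).ker :=
  ⟨le_top, cycloNF (p ^ (n + 1)), finiteDimensional_cycloNF _ Chi_pow_ne_zero,
    inf_le_right.trans Chi_fixingSubgroup_le_ker⟩

/-- `ker χ_n` is open: it is the fixing subgroup of its fixed field `ℚ_n`, a number field -/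
theorem finiteDimensional_Fix_ker_chi : FiniteDimensional ℚ (Places.Fix (chi p n).ker) := by
  have h1 : Places.Fix (chi p n).ker ≤ cycloNF (p ^ (n + 1)) := by
    have h2 := Fix_anti (Chi_fixingSubgroup_le_ker (p := p) (n := n))
    have := isGalois_Qbar
    exact h2.trans (InfiniteGalois.fixedField_fixingSubgroup _).le
  have := finiteDimensional_cycloNF (p ^ (n + 1)) Chi_pow_ne_zero
  exact FiniteDimensional.of_injective (IntermediateField.inclusion h1).toLinearMap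
    (IntermediateField.inclusion h1).injective

theorem fixingSubgroup_Fix_ker_chi :
    (Places.Fix (chi p n).ker).fixingSubgroup = (chi p n).ker := by
  apply le_antisymm
  · intro g hg
    exact Chi_isOpenIn_top.mem_of_fixes (Subgroup.mem_top g)
      (fun x hx => (IntermediateField.mem_fixingSubgroup_iff _ _).1 hg x hx)
  · exact (IntermediateField.le_iff_le _ _).1 le_rfl

theorem isOpen_ker_chi : Lall.IsOpen (chi p n).ker := isOpen_ker_of_isLevel _ chi_isLevel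

theorem isOpenIn_Dq_inf_ker_chi : IsOpenIn (Dq q) (Dq q ⊓ (chi p n).ker) :=
  ⟨inf_le_left, cycloNF (p ^ (n + 1)), finiteDimensional_cycloNF _ Chi_pow_ne_zero,
    inf_le_inf_left _ Chi_fixingSubgroup_le_ker⟩

/-- the restriction of `χ_n` to a subgroup -/
abbrev chiSub (p : ℕ) [Fact p.Prime] (n : ℕ) (W : Subgroup GQ) :
    ↥W →* Multiplicative (ZMod (p ^ n)) := (chi p n).comp W.subtype

theorem chiSub_isLevel (W : Subgroup GQ) : (Lall.sub W).IsLevel₁ (chiSub p n W) :=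
  isLevel₁_comp_subtype chi_isLevel W

theorem map_ker_chiSub (W : Subgroup GQ) :
    (chiSub p n W).ker.map W.subtype = W ⊓ (chi p n).ker := by
  ext g
  constructor
  · rintro ⟨x, hx, rfl⟩
    exact ⟨x.2, hx⟩
  · rintro ⟨h1, h2⟩
    exact ⟨⟨g, h1⟩, h2, rfl⟩

/-- `[D_q : D_q ∩ ker χ_n] • ψ(q) = 0` -/
theorem index_smul_psiNat (hq : q ≠ p) :
    (chiSub p n (Dq q)).ker.index • psiNat p n q = 0 := by
  obtain ⟨φ, hφ⟩ := exists_isFrob q
  have h1 := Subgroup.pow_index_mem (chiSub p n (Dq q)).ker (⟨φ, hφ.1⟩ : ↥(Dq q))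
  rw [MonoidHom.mem_ker, map_pow] at h1
  have h2 : chiSub p n (Dq q) ⟨φ, hφ.1⟩ = Multiplicative.ofAdd (psiNat p n q) := chi_frob hq hφ
  rw [h2, ← ofAdd_nsmul] at h1
  exact h1

end Fermat.Agent.S55.Recip

end
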