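import Fermat.Agent.S55.B.Recip.Hilbert90
import Fermat.Agent.S55.L.Kummer
import Fermat.Agent.S55.L.CycRes

/-!
# S55 (B/Recip), task S55/R-Datum: the arithmetic Kummer data `kdTop p` (on `GQ`, levels `Lall`) and
`kdSub p W` (on an arbitrary subgroup `W ≤ GQ`, levels `Lall.sub W`); the underlying algebraic number
`uval c` of an invariant `c ∈ H⁰(Gm)`; compatibility of `ι₂` and of cyclic classes with restriction.
All proofs are short unfoldings.
-/

set_option autoImplicit false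

noncomputable section

namespace Fermat.Agent.S55

open Places ExtCitation

variable (p : ℕ) [Fact p.Prime]

theorem iota_surj (a : Additive Qbarˣ) (h : p • a = 0) : ∃ x, iota p x = a := by
  have h1 : a ∈ Set.range (iota p) := by
    rw [mem_range_iota_iff, ← toMul_nsmul, h]
    rfl
  exact h1

/-- the Kummer datum of `GQ` -/
def kdTop : KummerDatum p GQ Lall where
  A := Additive Qbarˣ
  α := Gm
  μ := mu p
  ι := iota p
  ι_inj := iota_injective p
  ι_surj := iota_surj p
  ι_equiv g x := (iota_compat p g x).symm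
  div := Gm_div p
  h90 V _ := hilbert90 V

/-- the Kummer datum of an arbitrary subgroup of `GQ` (= `gmDatum` of `Arith/Kummer.lean`) -/
abbrev kdSub (W : Subgroup GQ) : KummerDatum p ↥W (Lall.sub W) := gmDatum p W

/-- `ι₂` commutes with restriction to an arbitrary subgroup -/
theorem res_ι2_top (W : Subgroup GQ) (x : H2 Lall (mu p)) :
    (Pair.res Lall Gm W).map2 ((kdTop p).ι2 x) =
      (kdSub p W).ι2 ((Pair.res Lall (mu p) W).map2 x) := by
  obtain ⟨z, rfl⟩ := H2.mk_surjective Lall (mu p) x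
  have h1 := (kdTop p).ι2_mk z
  have h2 := (kdSub p W).ι2_mk ((Pair.res Lall (mu p) W).z2 z)
  rw [Pair.map2_mk]
  refine Eq.trans ?_ h2.symm
  refine (congrArg (Pair.res Lall Gm W).map2 h1).trans ?_
  rfl

/-! ### the algebraic number underlying an invariant -/

section uval

variable {H : Type} [Group H] {α : Representation ℤ H (Additive Qbarˣ)}

/-- the algebraic number underlying `c ∈ H⁰(α)` -/
def uval (c : ↥(H0 α)) : Qbar := ((Additive.toMul (c : Additive Qbarˣ) : Qbarˣ) : Qbar)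

theorem uval_ne_zero (c : ↥(H0 α)) : uval c ≠ 0 := Units.ne_zero _
theorem uval_injective : Function.Injective (uval : ↥(H0 α) → Qbar) := by
  intro c c' h
  apply Subtype.ext
  apply Additive.toMul.injective
  exact Units.ext h
@[simp] theorem uval_zero : uval (0 : ↥(H0 α)) = 1 := rfl
theorem uval_add (c c' : ↥(H0 α)) : uval (c + c') = uval c * uval c' := rfl
theorem uval_neg (c : ↥(H0 α)) : uval (-c) = (uval c)⁻¹ := by
  unfold uval
  rw [Submodule.coe_neg, toMul_neg, Units.val_inv_eq_inv_val]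
theorem uval_sub (c c' : ↥(H0 α)) : uval (c - c') = uval c / uval c' := by
  rw [sub_eq_add_neg, uval_add, uval_neg, div_eq_mul_inv]
theorem uval_nsmul (k : ℕ) (c : ↥(H0 α)) : uval (k • c) = uval c ^ k := by
  induction k with
  | zero => simp
  | succ k ih => rw [succ_nsmul, uval_add, ih, pow_succ]
theorem uval_zsmul (k : ℤ) (c : ↥(H0 α)) : uval (k • c) = uval c ^ k := by
  cases k with
  | ofNat k => rw [Int.ofNat_eq_natCast, natCast_zsmul, uval_nsmul, zpow_natCast]
  | negSucc k => rw [negSucc_zsmul, uval_neg, uval_nsmul, zpow_negSucc]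

/-- the value of a general element of `Additive Qbarˣ` -/
theorem Datum_val_sum {ι : Type*} (s : Finset ι) (f : ι → Additive Qbarˣ) :
    ((Additive.toMul (∑ i ∈ s, f i) : Qbarˣ) : Qbar) =
      ∏ i ∈ s, ((Additive.toMul (f i) : Qbarˣ) : Qbar) := by
  rw [toMul_sum, Units.coe_prod]

end uval

theorem Datum_mem_H0_iff {H : Type} [Group H] (f : H →* GQ) (x : Additive Qbarˣ) :
    x ∈ H0 (MonoidHom.comp Gm f) ↔
      ∀ h : H, f h ((x.toMul : Qbarˣ) : Qbar) = ((x.toMul : Qbarˣ) : Qbar) := by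
  constructor
  · intro hx h
    have := congrArg (fun y : Additive Qbarˣ => ((y.toMul : Qbarˣ) : Qbar)) (hx h)
    exact this
  · intro hx h
    apply Additive.toMul.injective
    apply Units.ext
    exact hx h

theorem uval_mem_Fix {W : Subgroup GQ} (c : ↥(H0 (rsub Gm W))) : uval c ∈ Places.Fix W := by
  rw [IntermediateField.mem_fixedField_iff]
  intro g hg
  exact (Datum_mem_H0_iff W.subtype _).1 c.2 ⟨g, hg⟩

theorem exists_uval_eq {W : Subgroup GQ} {x : Qbar} (hx : x ∈ Places.Fix W) (h0 : x ≠ 0) :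
    ∃ c : ↥(H0 (rsub Gm W)), uval c = x := by
  rw [IntermediateField.mem_fixedField_iff] at hx
  exact ⟨⟨Additive.ofMul (Units.mk0 x h0),
    (Datum_mem_H0_iff W.subtype _).2 fun h => hx h h.2⟩, rfl⟩

attribute [local instance] isAlgClosureQbar in
theorem exists_rat_of_H0 (c : ↥(H0 Gm)) : ∃ b : ℚ, b ≠ 0 ∧ uval c = (b : Qbar) := by
  have h1 : ∀ g : GQ, g (uval c) = uval c := fun g =>
    (Datum_mem_H0_iff (MonoidHom.id GQ) _).1 c.2 g
  obtain ⟨b, hb⟩ := (InfiniteGalois.mem_range_algebraMap_iff_fixed (k := ℚ) (K := Qbar) (uval c)).2 h1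
  have hb' : uval c = (b : Qbar) := by rw [← hb, eq_ratCast]
  refine ⟨b, ?_, hb'⟩
  rintro rfl
  exact uval_ne_zero c (by rw [hb', Rat.cast_zero])

theorem exists_uval_eq_rat {b : ℚ} (hb : b ≠ 0) : ∃ c : ↥(H0 Gm), uval c = (b : Qbar) := by
  have h0 : (b : Qbar) ≠ 0 := Rat.cast_ne_zero.2 hb
  exact ⟨⟨Additive.ofMul (Units.mk0 (b : Qbar) h0),
    (Datum_mem_H0_iff (MonoidHom.id GQ) _).2 fun h => map_ratCast h b⟩, rfl⟩

@[simp] theorem uval_res (W : Subgroup GQ) (c : ↥(H0 Gm)) :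
    uval ((Pair.res Lall Gm W).map0 c) = uval c := rfl

/-- invariants of a subgroup of a subgroup -/
theorem uval_mem_Fix' {W : Subgroup GQ} (N : Subgroup ↥W) (c : ↥(H0 (rsub (rsub Gm W) N))) :
    uval c ∈ Places.Fix (N.map W.subtype) := by
  rw [IntermediateField.mem_fixedField_iff]
  rintro _ ⟨g, hg, rfl⟩
  exact (Datum_mem_H0_iff (W.subtype.comp N.subtype) _).1 c.2 ⟨g, hg⟩

theorem exists_uval_eq' {W : Subgroup GQ} (N : Subgroup ↥W) {x : Qbar}
    (hx : x ∈ Places.Fix (N.map W.subtype)) (h0 : x ≠ 0) :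
    ∃ c : ↥(H0 (rsub (rsub Gm W) N)), uval c = x := by
  rw [IntermediateField.mem_fixedField_iff] at hx
  exact ⟨⟨Additive.ofMul (Units.mk0 x h0),
    (Datum_mem_H0_iff (W.subtype.comp N.subtype) _).2 fun h =>
      hx _ (Subgroup.mem_map_of_mem _ h.2)⟩, rfl⟩

/-- the norm, multiplicatively (from `cores0_coe`) -/
theorem uval_cores0 {W : Subgroup GQ} (N : Subgroup ↥W) (hN : (Lall.sub W).IsOpen N)
    (c : ↥(H0 (rsub (rsub Gm W) N))) :
    uval (cores0 (Lall.sub W) (rsub Gm W) N hN c) =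
      ∏ᶠ x : ↥W ⧸ N, ((x.out : ↥W) : GQ) (uval c) := by
  have := (Lall.sub W).finite_quotient hN
  let _ := Fintype.ofFinite (↥W ⧸ N)
  unfold uval
  rw [cores0_coe, finsum_eq_sum_of_fintype, finprod_eq_prod_of_fintype, Datum_val_sum]
  rfl

/-- the norm in cyclic form (from `cores0_cyclic`) -/
theorem uval_cores0_cyclic {W : Subgroup GQ} {m : ℕ} [NeZero m]
    (χ : ↥W →* Multiplicative (ZMod m)) (hχ : (Lall.sub W).IsLevel₁ χ)
    (hs : Function.Surjective χ) (σ : ↥W) (hσ : χ σ = Multiplicative.ofAdd 1)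
    (c : ↥(H0 (rsub (rsub Gm W) χ.ker))) :
    uval (cores0 (Lall.sub W) (rsub Gm W) χ.ker (isOpen_ker_of_isLevel χ hχ) c) =
      ∏ i ∈ Finset.range m, ((σ : GQ) ^ i) (uval c) := by
  unfold uval
  rw [cores0_cyclic (Lall.sub W) (rsub Gm W) χ hχ hs σ hσ c, Datum_val_sum]
  rfl

theorem uval_cores0_cyclic_top {m : ℕ} [NeZero m]
    (χ : GQ →* Multiplicative (ZMod m)) (hχ : Lall.IsLevel₁ χ)
    (hs : Function.Surjective χ) (σ : GQ) (hσ : χ σ = Multiplicative.ofAdd 1)
    (c : ↥(H0 (rsub Gm χ.ker))) :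
    uval (cores0 Lall Gm χ.ker (isOpen_ker_of_isLevel χ hχ) c) =
      ∏ i ∈ Finset.range m, (σ ^ i) (uval c) := by
  unfold uval
  rw [cores0_cyclic Lall Gm χ hχ hs σ hσ c, Datum_val_sum]
  rfl

end Fermat.Agent.S55

end
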