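import Fermat.Agent.S55.Arith.Kummer
import Fermat.Agent.S55.Coh.All

/-!
# S55 (B/Recip): Hilbert 90 (F0).  The proof, `smooth_Gm`, `smooth_mu`, `Gm_div`, `gmDatum` live in
`Arith/H90.lean`, `Arith/Kummer.lean` (helper55, helper59); this file only keeps the names used in
`B/Recip` (the independent proof of helper34 was removed to avoid duplicate declaration names).
-/

set_option autoImplicit false

noncomputable section

namespace Fermat.Agent.S55

open Places ExtCitation

/-- **F0** -/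
theorem hilbert90 (W : Subgroup GQ) : Z1 (Lall.sub W) (rsub Gm W) ≤ B1 (rsub Gm W) := h90_Gm W

theorem hilbert90_top : Z1 Lall Gm ≤ B1 Gm := by
  intro c hc
  rw [mem_Z1] at hc
  obtain ⟨hcoc, U, hU, hlev⟩ := hc
  have h1 : (fun g : (⊤ : Subgroup GQ) => c (g : GQ)) ∈ Z1 (Lall.sub ⊤) (rsub Gm ⊤) := by
    rw [mem_Z1]
    refine ⟨fun g h => hcoc g h, U.comap (⊤ : Subgroup GQ).subtype, ⟨U, hU, le_rfl⟩, ?_⟩
    intro g s hs
    exact hlev g s hs
  have h2 := hilbert90 ⊤ h1
  rw [mem_B1] at h2 ⊢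
  obtain ⟨x, hx⟩ := h2
  exact ⟨x, fun g => hx ⟨g, Subgroup.mem_top g⟩⟩

end Fermat.Agent.S55

end
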