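import Fermat.Agent.S55.Z.ArithDatum
import Fermat.Agent.S55.G.BridgeDefs

/-!
# S55 (B/Recip): the four inputs of the reciprocity law, as `Prop`s.  (definitions only)
-/

set_option autoImplicit false

noncomputable section

namespace Fermat.Agent.S55.Recip

open Places ExtCitation Module

variable (p : ℕ) [Fact p.Prime]

/-- (G8) the Hasse principle for `H²(U, μ_p)`, `U` open in `GQ` -/
def HasseHyp : Prop :=
  ∀ U : Subgroup GQ, Lall.IsOpen U → ∀ x : H2 (Lall.sub U) (rsub (mu p) U),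
    (∀ (l : Nat.Primes) (g : GQ),
      (Pair.resLE Lall (mu p) (inf_le_right : G.Dg l g ⊓ U ≤ U)).map2 x = 0) → x = 0

/-- (UR) classes unramified outside `S` are locally trivial outside `S` -/
def URHyp (S : Finset Nat.Primes) : Prop :=
  ∀ l : Nat.Primes, l ∉ S → ∀ z : H2 (LS S) (mu p),
    (Pair.res Lall (mu p) (DqP l)).map2 ((Pair.infl LS_le_Lall (mu p)).map2 z) = 0

/-- (L4) `dim H²(D_l, μ_p) = 1` -/
def LineHyp : Prop :=
  ∀ l : Nat.Primes, finrank (ZMod p) (H2 (Lall.sub (DqP l)) (rsub (mu p) (DqP l))) = 1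

/-- (L4) normal open subgroups of index `p` kill `H²(D_l, μ_p)` -/
def KillHyp : Prop :=
  ∀ (l : Nat.Primes) (N : Subgroup ↥(DqP l)), N.Normal → (Lall.sub (DqP l)).IsOpen N →
    N.index = p → ∀ x : H2 (Lall.sub (DqP l)) (rsub (mu p) (DqP l)),
      (Pair.res (Lall.sub (DqP l)) (rsub (mu p) (DqP l)) N).map2 x = 0

end Fermat.Agent.S55.Recip

end
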