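import Fermat.Agent.S55.B.Recip.Hyp
import Fermat.Agent.S55.B.Recip.Chi
import Fermat.Agent.S55.B.Recip.Datum
import Fermat.Agent.S55.L.PGroup

/-!
# S55 (B/Recip), task S55/R-LocVanish: step (a): a class of `H²(G_S, μ_p)` dies on `ker χ_n`, `n` large.

Cohomological bookkeeping on the [A] API.
* `res_conj_eq_zero`: `U` normal in `GQ`, `y ∈ H²(GQ)`: `res_{D_l ⊓ U} y = 0 ⟹ res_{g D_l g⁻¹ ⊓ U} y = 0`
  (`conj_res2` with `g⁻¹`: `(Pair.conj L ρ g⁻¹ h).map2 (res_{D_l ⊓ U} y) = res_{g D_l g⁻¹ ⊓ U} y`).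
* `resLE_res`: transitivity of restriction (`Pair.map2_comp`, `Pair.map2_congr`, everything is `rfl` on `f`, `φ`).
* `exists_index_p`: a nontrivial character `χ : H → ℤ/p^n` has a normal open subgroup `N₁ ⊇ ker χ` of index `p`
  (`exists_surjective_char`: `χ'` onto `ℤ/m'`, same kernel, `m' = [H : ker χ]` divides `p^n` and is `≠ 1`, so
  `p ∣ m'`; compose with `ZMod.castHom : ℤ/m' → ℤ/p`; `index_ker_of_surjective`).
* `res_inf_ker_eq_zero_of_kill`: `χ_n(D_l) ≠ 0` + `KillHyp` ⟹ `res_{D_l ⊓ ker χ_n} y = 0` for all `y ∈ H²(GQ, μ_p)`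
  (`LAux.res_res_map2_eq_zero_iff`, `LAux.res_map2_eq_zero_of_le`; `N₁ = W.subgroupOf (D_l)`, `W = N₁.map subtype`).
-/

set_option autoImplicit false

noncomputable section

namespace Fermat.Agent.S55.Recip

open Places ExtCitation Module

variable {p : ℕ} [Fact p.Prime] {n : ℕ}

theorem resLE_res {V' V : Subgroup GQ} (h : V' ≤ V) (y : H2 Lall (mu p)) :
    (Pair.resLE Lall (mu p) h).map2 ((Pair.res Lall (mu p) V).map2 y) =
      (Pair.res Lall (mu p) V').map2 y := by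
  rw [← LinearMap.comp_apply, ← Pair.map2_comp]
  exact LinearMap.congr_fun (Pair.map2_congr rfl rfl) y

theorem res_conj_eq_zero (U : Subgroup GQ) [U.Normal] (l : Nat.Primes) (g : GQ)
    (y : H2 Lall (mu p)) (h : (Pair.res Lall (mu p) (DqP l ⊓ U)).map2 y = 0) :
    (Pair.res Lall (mu p) (G.Dg l g ⊓ U)).map2 y = 0 := by
  have hc : ∀ v ∈ G.Dg l g ⊓ U, g⁻¹ * v * g⁻¹⁻¹ ∈ DqP l ⊓ U := by
    rintro v ⟨hv1, hv2⟩
    refine ⟨?_, (inferInstance : U.Normal).conj_mem v hv2 g⁻¹⟩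
    obtain ⟨d, hd, rfl⟩ := hv1
    have e : g⁻¹ * (MulAut.conj g).toMonoidHom d * g⁻¹⁻¹ = d := by
      change g⁻¹ * (g * d * g⁻¹) * g⁻¹⁻¹ = d
      group
    rw [e]
    exact hd
  rw [← conj_res2 Lall (mu p) g⁻¹ hc y, h, map_zero]

theorem exists_index_p {H : Type} [Group H] {L : Levels H}
    (χ : H →* Multiplicative (ZMod (p ^ n))) (hχ : L.IsLevel₁ χ) (hne : χ ≠ 1) :
    ∃ N : Subgroup H, N.Normal ∧ L.IsOpen N ∧ N.index = p ∧ χ.ker ≤ N := by
  have hp : p.Prime := Fact.out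
  have hcard : Nat.card (Multiplicative (ZMod (p ^ n))) = p ^ n := by
    rw [Nat.card_congr Multiplicative.toAdd, Nat.card_zmod]
  have hdvd : χ.ker.index ∣ p ^ n := by
    rw [Subgroup.index_ker]
    exact (Subgroup.card_subgroup_dvd_card χ.range).trans (dvd_of_eq hcard)
  obtain ⟨j, -, hj⟩ := (Nat.dvd_prime_pow hp).1 hdvd
  have hj0 : j ≠ 0 := by
    rintro rfl
    rw [pow_zero, Subgroup.index_eq_one] at hj
    apply hne
    ext1 g
    have : g ∈ χ.ker := by rw [hj]; trivial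
    exact this
  obtain ⟨k, rfl⟩ := Nat.exists_eq_succ_of_ne_zero hj0
  obtain ⟨W, hWn, hle, hWi, -⟩ := exists_normal_index_p (p := p) χ.ker k hj
  exact ⟨W, hWn, L.isOpen_mono (isOpen_ker_of_isLevel χ hχ) hle, hWi, hle⟩

theorem res_inf_ker_eq_zero_of_kill (hK : KillHyp p) (l : Nat.Primes)
    (hne : ∃ g ∈ DqP l, chi p n g ≠ 1) (y : H2 Lall (mu p)) :
    (Pair.res Lall (mu p) (DqP l ⊓ (chi p n).ker)).map2 y = 0 := by
  obtain ⟨g, hg, hgne⟩ := hne
  have hne' : chiSub p n (DqP l) ≠ 1 := by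
    intro h
    apply hgne
    have := congrArg (fun f : ↥(DqP l) →* Multiplicative (ZMod (p ^ n)) => f ⟨g, hg⟩) h
    exact this
  obtain ⟨N, hNn, hNo, hNi, hle⟩ := exists_index_p (chiSub p n (DqP l)) (chiSub_isLevel _) hne'
  have he : (N.map (DqP l).subtype).subgroupOf (DqP l) = N :=
    Subgroup.comap_map_eq_self_of_injective (DqP l).subtype_injective N
  have h1 := hK l ((N.map (DqP l).subtype).subgroupOf (DqP l)) (by rw [he]; exact hNn)
    (by rw [he]; exact hNo) (by rw [he]; exact hNi) ((Pair.res Lall (mu p) (DqP l)).map2 y)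
  rw [LAux.res_res_map2_eq_zero_iff (mu p) (Subgroup.map_subtype_le N) y] at h1
  refine LAux.res_map2_eq_zero_of_le (mu p) ?_ y h1
  rintro x ⟨hx1, hx2⟩
  exact ⟨⟨x, hx1⟩, hle hx2, rfl⟩

/-- step (a) -/
theorem res_ker_chi_eq_zero (hp2 : p ≠ 2) (hn : 1 ≤ n) {S : Finset Nat.Primes}
    (hH : HasseHyp p) (hU : URHyp p S) (hK : KillHyp p)
    (hψ : ∀ l ∈ S, (l : ℕ) ≠ p → psiNat p n (l : ℕ) ≠ 0) (z : H2 (LS S) (mu p)) :
    (Pair.res Lall (mu p) (chi p n).ker).map2 ((Pair.infl LS_le_Lall (mu p)).map2 z) = 0 := by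
  have hp : p.Prime := Fact.out
  apply hH _ isOpen_ker_chi
  intro l g
  rw [resLE_res]
  apply res_conj_eq_zero
  by_cases hl : l ∈ S
  · apply res_inf_ker_eq_zero_of_kill hK
    by_cases hlp : (l : ℕ) = p
    · have hl' : l = ⟨p, hp⟩ := Subtype.ext hlp
      subst hl'
      obtain ⟨σ, hσ, hσ1⟩ := chi_surjective_Dq (p := p) (n := n) hp2 (Multiplicative.ofAdd 1)
      refine ⟨σ, hσ, ?_⟩
      rw [hσ1]
      intro h
      have h1 : (1 : ZMod (p ^ n)) = 0 := Multiplicative.ofAdd.injective h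
      have : Fact (1 < p ^ n) := ⟨Nat.one_lt_pow (by omega) hp.one_lt⟩
      exact one_ne_zero h1
    · have : Fact (l : ℕ).Prime := ⟨l.2⟩
      obtain ⟨φ, hφ⟩ := exists_isFrob (l : ℕ)
      refine ⟨φ, hφ.1, ?_⟩
      rw [chi_frob hlp hφ]
      intro h
      exact hψ l hl hlp (Multiplicative.ofAdd.injective h)
  · exact LAux.res_map2_eq_zero_of_le (mu p) inf_le_left _ (hU l hl z)

/-- step (b) -/
theorem exists_cycCl_eq (hp2 : p ≠ 2) (hn : 1 ≤ n) {S : Finset Nat.Primes}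
    (hH : HasseHyp p) (hU : URHyp p S) (hK : KillHyp p)
    (hψ : ∀ l ∈ S, (l : ℕ) ≠ p → psiNat p n (l : ℕ) ≠ 0) (z : H2 (LS S) (mu p)) :
    ∃ c : ↥(H0 Gm), (kdTop p).ι2 ((Pair.infl LS_le_Lall (mu p)).map2 z) =
      cycCl Lall Gm (chi p n) chi_isLevel c := by
  have h0 := res_ker_chi_eq_zero hp2 hn hH hU hK hψ z
  have h1 : (Pair.res Lall Gm (chi p n).ker).map2
      ((kdTop p).ι2 ((Pair.infl LS_le_Lall (mu p)).map2 z)) = 0 := by
    rw [res_ι2_top, h0]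
    exact map_zero (kdSub p (chi p n).ker).ι2
  exact exists_cycCl_of_res_eq_zero Lall Gm (chi p n) chi_isLevel (chi_surjective hp2)
    (hilbert90 _) _ h1

end Fermat.Agent.S55.Recip

end
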