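import Fermat.Agent.S55.B.Recip.Tame1

/-!
# S55 (B/Recip), task S55/R-Tame2: the local invariant at `q ≠ p`.

Assume `ψ(q) ≠ 0`, `n ≥ 1`, `dim H²(D_q, μ_p) = 1`.  `I = addOrderOf ψ(q) = p^i`, `i ≥ 1` (it divides `p^n`),
`I = [D_q : ker χ_q]` (`index_ker_chiSub`).  Let `c_q` have `uval = q`, `c₀ = (I/p) • c_q`.
`p • ⟨χ_q,c₀⟩ = ⟨χ_q, I • c_q⟩ = 0` (`cycW_index_smul`), so `⟨χ_q,c₀⟩ = ι₂ e` (`KummerDatum.exists_ι2_eq`);
`e ≠ 0`, else `(I/p) • ψ(q) = 0` by `tame_of_cycCl_eq_zero`.  `(I/p) • ψ(q) = jn u`, `u ≠ 0` (`exists_jn_eq`).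
`lam (t • e) := t * u`.  If `ι₂ (t • e) = ⟨χ_q,c⟩` then `⟨χ_q, c - t.val • c₀⟩ = 0`, so
`(v(c) - t.val (I/p)) • ψ(q) = 0`, i.e. `v(c) • ψ(q) = t.val • jn u = jn (t u)`.
-/

set_option autoImplicit false

noncomputable section

namespace Fermat.Agent.S55.Recip

open Places ExtCitation Module

variable {p : ℕ} [Fact p.Prime] {n : ℕ} {q : ℕ} [Fact q.Prime]

/-- the abstract algebra behind `exists_lam_tame` -/
theorem Tame2_abstract {P B C : Type} [AddCommGroup P] [Module (ZMod p) P] [AddCommGroup B]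
    [AddCommGroup C] (h1 : finrank (ZMod p) P = 1) (ι : P →+ B) (cyc : C →+ B) (hn : 1 ≤ n)
    (ψ : ZMod (p ^ n)) (hψ : ψ ≠ 0) (V : C → ℤ → Prop)
    (hVsub : ∀ c c' k k', V c k → V c' k' → V (c - c') (k - k'))
    (hVsmul : ∀ c k (m : ℕ), V c k → V (m • c) (m * k))
    (cq : C) (hcq : V cq 1)
    (hex : ∀ x : B, p • x = 0 → ∃ x', ι x' = x)
    (htame : ∀ c k, V c k → cyc c = 0 → k • ψ = 0)
    (hI : cyc (addOrderOf ψ • cq) = 0) :
    ∃ lam : P ≃ₗ[ZMod p] ZMod p, ∀ x c k, V c k → ι x = cyc c → jn p n (lam x) = k • ψ := by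
  have hIdvd : addOrderOf ψ ∣ p ^ n := addOrderOf_dvd_of_nsmul_eq_zero (by
    rw [nsmul_eq_mul, ZMod.natCast_self, zero_mul])
  have hI1 : addOrderOf ψ ≠ 1 := by rw [Ne, AddMonoid.addOrderOf_eq_one_iff]; exact hψ
  have hpI : p ∣ addOrderOf ψ := by
    obtain ⟨i, -, hIi⟩ := (Nat.dvd_prime_pow Fact.out).1 hIdvd
    rw [hIi]
    cases i with
    | zero => exact absurd (by rw [hIi, pow_zero]) hI1
    | succ i => exact dvd_pow_self p (Nat.succ_ne_zero i)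
  obtain ⟨J, hJ⟩ := hpI
  have hIpos : 0 < addOrderOf ψ := Nat.pos_of_dvd_of_pos hIdvd (pow_pos (Fact.out : p.Prime).pos n)
  have hp0 : p • cyc (J • cq) = 0 := by rw [← map_nsmul, smul_smul, ← hJ]; exact hI
  obtain ⟨e, he⟩ := hex _ hp0
  have hJψ : J • ψ ≠ 0 := by
    intro h
    have h2 := addOrderOf_dvd_of_nsmul_eq_zero h
    have hJpos : 0 < J := by
      rcases Nat.eq_zero_or_pos J with h0 | h0
      · rw [h0, mul_zero] at hJ; omega
      · exact h0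
    have h3 := Nat.le_of_dvd hJpos h2
    have h4 : 2 * J ≤ p * J := Nat.mul_le_mul_right J (Fact.out : p.Prime).two_le
    omega
  have he0 : e ≠ 0 := by
    rintro rfl
    rw [map_zero] at he
    have h2 := htame (J • cq) _ (hVsmul cq 1 J hcq) he.symm
    rw [mul_one, natCast_zsmul] at h2
    exact hJψ h2
  obtain ⟨u, hu⟩ := exists_jn_eq hn (x := J • ψ)
    (by rw [smul_smul, ← hJ]; exact addOrderOf_nsmul_eq_zero ψ)
  have hu0 : u ≠ 0 := by rintro rfl; rw [map_zero] at hu; exact hJψ hu.symm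
  have he' : u⁻¹ • e ≠ 0 := smul_ne_zero (inv_ne_zero hu0) he0
  have hbij : Function.Bijective (LinearMap.toSpanSingleton (ZMod p) P (u⁻¹ • e)) := by
    constructor
    · intro a b hab
      exact smul_left_injective (ZMod p) he' hab
    · intro w
      obtain ⟨c, hc⟩ := (finrank_eq_one_iff_of_nonzero' _ he').1 h1 w
      exact ⟨c, hc⟩
  refine ⟨(LinearEquiv.ofBijective _ hbij).symm, fun x c k hk hx => ?_⟩
  obtain ⟨t, rfl⟩ := (finrank_eq_one_iff_of_nonzero' e he0).1 h1 x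
  have hlam : (LinearEquiv.ofBijective _ hbij).symm (t • e) = t * u := by
    rw [LinearEquiv.symm_apply_eq]
    change t • e = (t * u) • (u⁻¹ • e)
    rw [smul_smul, mul_assoc, mul_inv_cancel₀ hu0, mul_one]
  rw [hlam]
  obtain ⟨m, rfl⟩ : ∃ m : ℕ, (m : ZMod p) = t := ⟨t.val, ZMod.natCast_zmod_val t⟩
  rw [jn_natCast_mul, hu]
  rw [Nat.cast_smul_eq_nsmul, map_nsmul, he, ← map_nsmul] at hx
  have h0 : cyc (c - m • J • cq) = 0 := by rw [map_sub, ← hx, sub_self]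
  have hV : V (c - m • J • cq) (k - m * (J * 1)) :=
    hVsub _ _ _ _ hk (hVsmul _ _ _ (hVsmul _ _ _ hcq))
  have h2 := htame _ _ hV h0
  rw [sub_smul, sub_eq_zero] at h2
  rw [h2, mul_one, mul_smul, natCast_zsmul, natCast_zsmul]

theorem exists_lam_tame (hn : 1 ≤ n) (hq : q ≠ p) (hψ : psiNat p n q ≠ 0)
    (h1 : finrank (ZMod p) (H2 (Lall.sub (Dq q)) (rsub (mu p) (Dq q))) = 1) :
    ∃ lam : H2 (Lall.sub (Dq q)) (rsub (mu p) (Dq q)) ≃ₗ[ZMod p] ZMod p,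
      ∀ (x : H2 (Lall.sub (Dq q)) (rsub (mu p) (Dq q))) (c : ↥(H0 (rsub Gm (Dq q)))) (k : ℤ),
        nrm q (uval c) = (q : ℝ) ^ (-k) → (kdSub p (Dq q)).ι2 x = cycW p n (Dq q) c →
        jn p n (lam x) = k • psiNat p n q := by
  have hq0 : (q : ℝ) ≠ 0 := by exact_mod_cast (Fact.out : q.Prime).ne_zero
  have hqF : (q : Qbar) ∈ Places.Fix (Dq q) := (mem_Fix_iff).2 fun g _ => map_natCast g q
  have hqQ : (q : Qbar) ≠ 0 := by exact_mod_cast (Fact.out : q.Prime).ne_zero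
  obtain ⟨cq, hcq⟩ := exists_uval_eq (W := Dq q) hqF hqQ
  exact Tame2_abstract (p := p) (n := n) h1 (kdSub p (Dq q)).ι2
    (cycClHom (Lall.sub (Dq q)) (rsub Gm (Dq q)) (chiSub p n (Dq q)) (chiSub_isLevel (Dq q))) hn
    (psiNat p n q) hψ (fun c k => nrm q (uval c) = (q : ℝ) ^ (-k))
    (fun c c' k k' h h' => by
      rw [uval_sub, nrm_div, h, h', ← zpow_sub₀ hq0]
      congr 1
      ring)
    (fun c k m h => by
      rw [uval_nsmul, nrm_pow, h, ← zpow_natCast, ← zpow_mul]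
      congr 1
      ring)
    cq (by rw [hcq, nrm_natCast_self, zpow_neg_one])
    (fun x hx => (kdSub p (Dq q)).exists_ι2_eq x hx)
    (fun c k hk h => tame_of_cycCl_eq_zero hq c k hk h)
    (by rw [← index_ker_chiSub hq]; exact cycW_index_smul cq)

end Fermat.Agent.S55.Recip

end
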