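import Fermat.Agent.S55.B.Recip.Tame1

/-!
# S55 (B/Recip), task S55/R-WildE: step (e): `⟨χ_p, b⟩ = 0` at `p` ⟹ `Ψ(b) = 0`.

* `Psi_eq_zero_of_cycCl_top`: if `⟨χ_n, c⟩ = 0` globally (`uval c = b ∈ ℚ`), restrict to every `D_q`, `q ≠ p`
  (`res_cycCl_sub`), get `v_q(b) • ψ(q) = 0` (`tame_of_cycCl_eq_zero`, `nrm_ratCast`,
  `padicNorm = q^(-padicValRat)`); `psiNat p = 0`; conclude with `Psi_eq_sum ∅`.
* `Psi_eq_zero_of_cycW`: `⟨χ_p, res c⟩ = 0` ⟹ `res c = N_loc y` (`cycCl_eq_zero_iff`/`'`), `y ∈ Fix (D_p ⊓ ker χ_n)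
  = Fix (D_p ⊓ K.fixingSubgroup)`, `K = Fix (ker χ_n)` a number field.  P3 (`exists_near_of_mem_Fix'`):
  `β ∈ K`, `|y/β - 1| < p^-(n+1)`.  Take `σ ∈ D_p` with `χ_n σ = 1` (`chi_surjective_Dq`): by
  `uval_cores0_cyclic` and `uval_cores0_cyclic_top` both the local norm of `y` and the global norm `B` of `β` are
  `∏_{i<p^n} σ^i (·)`.  `B ∈ ℚˣ`, `⟨χ_n, B⟩ = 0` (`cycCl_eq_zero_iff`), so `Ψ(B) = 0`.
  `u = b/B = ∏ σ^i (y/β)`, `|σ^i t - 1| = |t - 1|`, so `|u - 1| < p^-(n+1)`, `Ψ(u) = 0`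
  (`Psi_eq_zero_of_close`).  `Ψ(b) = Ψ(u) + Ψ(B) = 0`.
-/

set_option autoImplicit false

noncomputable section

namespace Fermat.Agent.S55.Recip

open Places ExtCitation

variable {p : ℕ} [Fact p.Prime] {n : ℕ}

theorem nrm_rat_eq (q : ℕ) [Fact q.Prime] {b : ℚ} (hb : b ≠ 0) :
    nrm q (b : Qbar) = (q : ℝ) ^ (-(padicValRat q b)) := by
  rw [nrm_ratCast, padicNorm.eq_zpow_of_nonzero hb]
  push_cast
  rfl

/-- global norms from `ℚ_n` are killed by `Ψ` -/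
theorem Psi_eq_zero_of_cycCl_top (c : ↥(H0 Gm)) {b : ℚ} (hb : b ≠ 0) (hc : uval c = (b : Qbar))
    (h : cycCl Lall Gm (chi p n) chi_isLevel c = 0) : Psi p n b = 0 := by
  rw [Psi_eq_sum ∅ b, Finset.sum_empty]
  intro q _
  by_cases hq : (q : ℕ) = p
  · rw [hq, psiNat_self, smul_zero]
  · have : Fact (q : ℕ).Prime := ⟨q.2⟩
    have h1 := res_cycCl_sub Lall Gm (chi p n) chi_isLevel (Dq (q : ℕ)) c
    rw [h, map_zero] at h1
    refine tame_of_cycCl_eq_zero hq ((Pair.res Lall Gm (Dq (q : ℕ))).map0 c) _ ?_ h1.symm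
    rw [uval_res, hc, nrm_rat_eq _ hb]

/-- a finite product of elements close to `1` is close to `1` -/
theorem nrm_prod_sub_one_lt (q : ℕ) [Fact q.Prime] {ι : Type} (s : Finset ι) (f : ι → Qbar)
    {ε : ℝ} (hε : 0 < ε) (hε1 : ε ≤ 1) (h : ∀ i ∈ s, nrm q (f i - 1) < ε) :
    nrm q (∏ i ∈ s, f i - 1) < ε := by
  classical
  induction s using Finset.induction_on with
  | empty => simpa using hε
  | insert a s ha ih =>
    have h1 : nrm q (∏ i ∈ s, f i - 1) < ε := ih (fun i hi => h i (Finset.mem_insert_of_mem hi))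
    have h2 : nrm q (f a - 1) < ε := h a (Finset.mem_insert_self a s)
    have h3 : nrm q (∏ i ∈ s, f i) ≤ 1 := by
      have h4 : ∏ i ∈ s, f i = (∏ i ∈ s, f i - 1) + 1 := by ring
      rw [h4]
      refine (nrm_add_le_max q _ _).trans (max_le (h1.le.trans hε1) ?_)
      rw [nrm_one]
    have h5 : ∏ i ∈ insert a s, f i - 1 = (f a - 1) * ∏ i ∈ s, f i + (∏ i ∈ s, f i - 1) := by
      rw [Finset.prod_insert ha]
      ring
    rw [h5]
    refine (nrm_add_le_max q _ _).trans_lt (max_lt ?_ h1)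
    rw [nrm_mul]
    exact (mul_le_of_le_one_right (nrm_nonneg q _) h3).trans_lt h2

/-- (e) -/
theorem Psi_eq_zero_of_cycW (hp2 : p ≠ 2) (c : ↥(H0 Gm)) {b : ℚ} (hb : b ≠ 0)
    (hc : uval c = (b : Qbar)) (h : cycW p n (Dq p) ((Pair.res Lall Gm (Dq p)).map0 c) = 0) :
    Psi p n b = 0 := by
  have hp : p.Prime := Fact.out
  -- surjectivity, generator
  have hs : Function.Surjective (chiSub p n (Dq p)) := by
    intro x
    obtain ⟨g, hg, hgx⟩ := chi_surjective_Dq (p := p) (n := n) hp2 x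
    exact ⟨⟨g, hg⟩, hgx⟩
  obtain ⟨σ, hσD, hσ⟩ := chi_surjective_Dq (p := p) (n := n) hp2 (Multiplicative.ofAdd 1)
  -- the local norm preimage
  have h1 := (cycCl_eq_zero_iff (Lall.sub (Dq p)) (rsub Gm (Dq p)) (chiSub p n (Dq p))
    (chiSub_isLevel (Dq p)) hs (LAux.Z1_le_B1_rsub_rsub Gm (Dq p) _ (hilbert90 _)) _).1 h
  obtain ⟨y, hy⟩ := h1
  have hy1 := uval_cores0_cyclic (chiSub p n (Dq p)) (chiSub_isLevel (Dq p)) hs ⟨σ, hσD⟩ hσ y
  rw [hy, uval_res, hc] at hy1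
  -- approximation
  have hfd : FiniteDimensional ℚ (Places.Fix (chi p n).ker) := finiteDimensional_Fix_ker_chi
  have hyF : uval y ∈ Places.Fix (Dq p ⊓ (Places.Fix (chi p n).ker).fixingSubgroup) := by
    have := uval_mem_Fix' _ y
    rwa [map_ker_chiSub, ← fixingSubgroup_Fix_ker_chi] at this
  have hε : (0 : ℝ) < ((p : ℝ) ^ (n + 1))⁻¹ := by
    have : (0 : ℝ) < p := by exact_mod_cast hp.pos
    positivity
  have hε1 : ((p : ℝ) ^ (n + 1))⁻¹ ≤ 1 := by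
    have : (1 : ℝ) ≤ p := by exact_mod_cast hp.one_lt.le
    exact inv_le_one_of_one_le₀ (one_le_pow₀ this)
  obtain ⟨β, hβK, hβ0, hβ, -⟩ := exists_near_of_mem_Fix' p _ hyF (uval_ne_zero y) hε
  -- the global norm
  obtain ⟨c', hc'⟩ := exists_uval_eq hβK hβ0
  set B' := cores0 Lall Gm (chi p n).ker (isOpen_ker_of_isLevel _ chi_isLevel) c' with hB'
  have hB1 : uval B' = ∏ i ∈ Finset.range (p ^ n), (σ ^ i) β := by
    rw [hB', uval_cores0_cyclic_top (chi p n) chi_isLevel (chi_surjective hp2) σ hσ c', hc']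
  obtain ⟨B, hB0, hB⟩ := exists_rat_of_H0 B'
  have hB2 : cycCl Lall Gm (chi p n) chi_isLevel B' = 0 :=
    (cycCl_eq_zero_iff Lall Gm (chi p n) chi_isLevel (chi_surjective hp2) (hilbert90 _) B').2
      ⟨c', rfl⟩
  have hPB : Psi p n B = 0 := Psi_eq_zero_of_cycCl_top B' hB0 hB hB2
  -- the quotient
  have hu : (((b / B : ℚ) : ℚ) : Qbar) = ∏ i ∈ Finset.range (p ^ n), (σ ^ i) (uval y / β) := by
    rw [Rat.cast_div, hy1, ← hB, hB1, ← Finset.prod_div_distrib]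
    exact Finset.prod_congr rfl (fun i _ => (map_div₀ _ _ _).symm)
  have hu1 : nrm p ((((b / B : ℚ) : ℚ) : Qbar) - 1) < ((p : ℝ) ^ (n + 1))⁻¹ := by
    rw [hu]
    refine nrm_prod_sub_one_lt p _ _ hε hε1 (fun i _ => ?_)
    have h2 : (σ ^ i) (uval y / β) - 1 = (σ ^ i) (uval y / β - 1) := by
      rw [map_sub, map_one]
    rw [h2, nrm_map_of_mem_Dq p ((Dq p).pow_mem hσD i)]
    exact hβ
  have hu2 : padicNorm p (b / B - 1) ≤ ((p : ℚ) ^ (n + 1))⁻¹ := by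
    have h3 : ((((b / B : ℚ) : ℚ) : Qbar) - 1) = (((b / B - 1 : ℚ) : ℚ) : Qbar) := by
      push_cast
      ring
    rw [h3, nrm_ratCast] at hu1
    have h4 : ((padicNorm p (b / B - 1) : ℚ) : ℝ) ≤ ((((p : ℚ) ^ (n + 1))⁻¹ : ℚ) : ℝ) := by
      push_cast
      exact hu1.le
    exact_mod_cast h4
  have hPu : Psi p n (b / B) = 0 := Psi_eq_zero_of_close hp2 hu2
  have hbB : b = b / B * B := (div_mul_cancel₀ b hB0).symm
  rw [hbB, Psi_mul (div_ne_zero hb hB0) hB0, hPu, hPB, add_zero]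

end Fermat.Agent.S55.Recip

end
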