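import Fermat.Agent.S55.B.Recip.Chi

/-!
# S55 (B/Recip), task S55/R-WildNorm: `p` is a norm from `ℚ_n = Fix (ker χ_n)`.

`ζ` a primitive `p^(n+1)`-th root of unity, `c := ∏_{u ∈ ker ψ} (1 - ζ^u)`.  For `g ∈ ker χ_n`:
`cycN g ∈ ker ψ` and `g c = ∏_u (1 - ζ^(cycN g * u)) = c`.  `s = cycN σ`, `ψ s` a generator:
`(i,u) ↦ s^i u` is a bijection `range (p^n) × ker ψ → (ℤ/p^(n+1))ˣ`, so
`∏_{i<p^n} σ^i c = ∏_{a ∈ (ℤ/p^(n+1))ˣ} (1 - ζ^a) = Φ_{p^(n+1)}(1) = p`
(Mathlib `Polynomial.cyclotomic_eq_prod_X_sub_primitiveRoots`, `Polynomial.eval_one_cyclotomic_prime_pow`).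
-/

set_option autoImplicit false

noncomputable section

namespace Fermat.Agent.S55.Recip

open Places ExtCitation

namespace WildNormAux

/-- `F u = 1 - ζ^u` -/
def F {N : ℕ} (ζ : Qbar) (u : (ZMod N)ˣ) : Qbar := 1 - ζ ^ (u : ZMod N).val

theorem map_F {N : ℕ} [NeZero N] {ζ : Qbar} (hζ : ζ ^ N = 1) (g : GQ) (u : (ZMod N)ˣ) :
    g (F ζ u) = F ζ (cycN N g * u) := by
  unfold F
  rw [map_sub, map_one, map_pow, cycN_spec N g hζ, ← pow_mul, Units.val_mul, ZMod.val_mul,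
    ← pow_eq_pow_mod _ hζ]

theorem map_pow_F {N : ℕ} [NeZero N] {ζ : Qbar} (hζ : ζ ^ N = 1) (g : GQ) (i : ℕ)
    (u : (ZMod N)ˣ) : (g ^ i) (F ζ u) = F ζ (cycN N g ^ i * u) := by
  rw [map_F hζ, map_pow]

/-- `∏_{a ∈ (ℤ/N)ˣ} (1 - ζ^a) = Φ_N(1)` -/
theorem prod_F {N : ℕ} [NeZero N] {ζ : Qbar} (hζ : IsPrimitiveRoot ζ N) :
    ∏ a : (ZMod N)ˣ, F ζ a = (Polynomial.cyclotomic N Qbar).eval 1 := by
  rw [Polynomial.cyclotomic_eq_prod_X_sub_primitiveRoots hζ, Polynomial.eval_prod]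
  simp only [Polynomial.eval_sub, Polynomial.eval_X, Polynomial.eval_C]
  have hpos : 0 < N := Nat.pos_of_ne_zero (NeZero.ne N)
  refine Finset.prod_bij (fun a _ => ζ ^ (a : ZMod N).val) ?_ ?_ ?_ ?_
  · intro a _
    rw [mem_primitiveRoots hpos]
    exact (hζ.pow_iff_coprime hpos _).2 (ZMod.val_coe_unit_coprime a)
  · intro a _ b _ hab
    exact Units.ext (ZMod.val_injective N (hζ.pow_inj (ZMod.val_lt _) (ZMod.val_lt _) hab))
  · intro ξ hξ
    rw [mem_primitiveRoots hpos] at hξ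
    obtain ⟨i, hi, hc, rfl⟩ := hζ.isPrimitiveRoot_iff.1 hξ
    refine ⟨ZMod.unitOfCoprime i hc, Finset.mem_univ _, ?_⟩
    rw [ZMod.coe_unitOfCoprime, ZMod.val_cast_of_lt hi]
  · intro a _
    rfl

/-- abstract reindexing: `G` a finite commutative group, `ψ : G → ℤ/m`, `ψ s = 1`. -/
theorem prod_reindex {G : Type*} [CommGroup G] [Fintype G] [DecidableEq G] {m : ℕ} [NeZero m]
    (ψ : G →* Multiplicative (ZMod m)) [DecidablePred fun u => ψ u = 1] {s : G}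
    (hs : ψ s = Multiplicative.ofAdd 1) (f : G → Qbar) :
    ∏ i ∈ Finset.range m, ∏ u ∈ Finset.univ.filter (fun u => ψ u = 1), f (s ^ i * u)
      = ∏ a : G, f a := by
  classical
  have hpow : ∀ i : ℕ, ψ (s ^ i) = Multiplicative.ofAdd (i : ZMod m) := by
    intro i
    rw [map_pow, hs, ← ofAdd_nsmul, nsmul_eq_mul, mul_one]
  rw [← Finset.prod_fiberwise Finset.univ (fun a => Multiplicative.toAdd (ψ a)) f]
  refine Finset.prod_nbij' (fun i => (i : ZMod m)) ZMod.val ?_ ?_ ?_ ?_ ?_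
  · intro i _; exact Finset.mem_univ _
  · intro j _; exact Finset.mem_range.2 (ZMod.val_lt j)
  · intro i hi; exact ZMod.val_cast_of_lt (Finset.mem_range.1 hi)
  · intro j _; exact ZMod.natCast_zmod_val j
  · intro i _
    refine Finset.prod_nbij' (fun u => s ^ i * u) (fun a => (s ^ i)⁻¹ * a) ?_ ?_ ?_ ?_ ?_
    · intro u hu
      rw [Finset.mem_filter] at hu ⊢
      refine ⟨Finset.mem_univ _, ?_⟩
      rw [map_mul, hu.2, mul_one, hpow]
      rfl
    · intro a ha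
      rw [Finset.mem_filter] at ha ⊢
      refine ⟨Finset.mem_univ _, ?_⟩
      have h1 : ψ a = Multiplicative.ofAdd (i : ZMod m) := ha.2
      rw [map_mul, map_inv, hpow, h1, inv_mul_cancel]
    · intro u _; simp
    · intro a _; simp
    · intro u _; rfl

end WildNormAux

open WildNormAux

variable {p : ℕ} [Fact p.Prime] {n : ℕ}

theorem exists_norm_eq_p (hp2 : p ≠ 2) {σ : GQ} (hσ : chi p n σ = Multiplicative.ofAdd 1) :
    ∃ c ∈ Places.Fix (chi p n).ker, c ≠ 0 ∧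
      ∏ i ∈ Finset.range (p ^ n), (σ ^ i) c = (p : Qbar) := by
  classical
  obtain ⟨ζ, hζ⟩ := cyclo_exists_primitiveRoot (p ^ (n + 1))
  have hζ1 := hζ.pow_eq_one
  set K : Finset (ZMod (p ^ (n + 1)))ˣ := Finset.univ.filter (fun u => psi p n u = 1) with hK
  have hnorm : ∏ i ∈ Finset.range (p ^ n), (σ ^ i) (∏ u ∈ K, F ζ u) = (p : Qbar) := by
    have h1 : ∀ i : ℕ, (σ ^ i) (∏ u ∈ K, F ζ u)
        = ∏ u ∈ K, F ζ (cycN (p ^ (n + 1)) σ ^ i * u) := by
      intro i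
      rw [map_prod]
      exact Finset.prod_congr rfl fun u _ => map_pow_F hζ1 σ i u
    simp only [h1]
    rw [hK, prod_reindex (psi p n) (s := cycN (p ^ (n + 1)) σ) hσ (F ζ), prod_F hζ,
      Polynomial.eval_one_cyclotomic_prime_pow]
  refine ⟨∏ u ∈ K, F ζ u, ?_, ?_, hnorm⟩
  · rw [mem_Fix_iff]
    intro g hg
    have hg' : psi p n (cycN (p ^ (n + 1)) g) = 1 := hg
    rw [map_prod]
    simp only [map_F hζ1]
    refine Finset.prod_nbij' (fun u => cycN (p ^ (n + 1)) g * u)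
      (fun u => (cycN (p ^ (n + 1)) g)⁻¹ * u) ?_ ?_ ?_ ?_ ?_
    · intro u hu
      rw [hK, Finset.mem_filter] at hu ⊢
      exact ⟨Finset.mem_univ _, by rw [map_mul, hg', hu.2, mul_one]⟩
    · intro u hu
      rw [hK, Finset.mem_filter] at hu ⊢
      exact ⟨Finset.mem_univ _, by rw [map_mul, map_inv, hg', hu.2, inv_one, mul_one]⟩
    · intro u _; simp
    · intro u _; simp
    · intro u _; rfl
  · intro h0
    rw [h0] at hnorm
    simp only [map_zero] at hnorm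
    rw [Finset.prod_const, Finset.card_range,
      zero_pow (pow_ne_zero _ (Fact.out : p.Prime).ne_zero)] at hnorm
    exact (Nat.cast_ne_zero.2 (Fact.out : p.Prime).ne_zero) hnorm.symm

end Fermat.Agent.S55.Recip

end
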