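import Fermat.Agent.S55.B.Recip.Tame1
import Fermat.Agent.S55.B.Recip.WildNorm
import Fermat.Agent.S55.Places.PthPower

/-!
# S55 (B/Recip), task S55/R-WildF: step (f): `Ψ(b) = 0` ⟹ `⟨χ_p, b⟩ = 0` at `p`.

Write `b = ε p^v b'`, `ε = ± 1`, `v = v_p(b)`, `v_p(b') = 0`; `⟨χ_p, ·⟩` is additive.
* `⟨χ_n, p⟩ = 0` globally: `p` is a norm (`exists_norm_eq_p`, `uval_cores0_cyclic_top`, `uval_injective`,
  `cycCl_eq_zero_iff`, `σ` from `chi_surjective`); restrict (`res_cycCl_sub`).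
* `⟨χ_p, -1⟩`: killed by `2` and by `p^n` (`smul_cycCl`), `eq_zero_of_coprime_smul`.
* `Ψ(b') = Ψ(b) = 0`, so `|b'^(p-1) - 1|_p ≤ p^-(n+1)` (`close_of_Psi_eq_zero`), so `b'^(p-1) = w^(p^n)`, `w ∈ Qh p`
  (`exists_pow_pow_eq_mem_Fix` with `W = Dq p`, `nrm p p = p⁻¹`): `(p-1) • ⟨χ_p,b'⟩ = p^n • ⟨χ_p,w⟩ = 0`; also
  `p^n • ⟨χ_p,b'⟩ = 0`; coprime.
-/

set_option autoImplicit false

noncomputable section

namespace Fermat.Agent.S55.Recip

open Places ExtCitation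

variable {p : ℕ} [Fact p.Prime] {n : ℕ}

theorem cycCl_top_p (hp2 : p ≠ 2) (c : ↥(H0 Gm)) (hc : uval c = (p : Qbar)) :
    cycCl Lall Gm (chi p n) chi_isLevel c = 0 := by
  obtain ⟨σ, hσ⟩ := chi_surjective (p := p) (n := n) hp2 (Multiplicative.ofAdd 1)
  obtain ⟨c₀, hc₀, hc₀0, hprod⟩ := exists_norm_eq_p hp2 hσ
  obtain ⟨y, hy⟩ := exists_uval_eq hc₀ hc₀0
  refine (cycCl_eq_zero_iff Lall Gm (chi p n) chi_isLevel (chi_surjective hp2)
    (hilbert90 _) c).mpr ⟨y, uval_injective ?_⟩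
  rw [uval_cores0_cyclic_top (chi p n) chi_isLevel (chi_surjective hp2) σ hσ y, hy, hprod, hc]

theorem cycW_neg_one (hp2 : p ≠ 2) (W : Subgroup GQ) (c : ↥(H0 (rsub Gm W))) (hc : uval c = -1) :
    cycW p n W c = 0 := by
  have hp : p.Prime := Fact.out
  have h2c : 2 • c = 0 := uval_injective (by rw [uval_nsmul, hc, uval_zero]; norm_num)
  have h2 : 2 • cycW p n W c = 0 := by
    rw [cycW, ← cycCl_nsmul, h2c, cycCl_zero]
  have hpn : p ^ n • cycW p n W c = 0 := smul_cycCl _ _ _ _ c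
  refine eq_zero_of_coprime_smul ?_ h2 hpn
  exact Nat.Coprime.pow_right n ((Nat.coprime_primes Nat.prime_two hp).mpr (Ne.symm hp2))

theorem cycW_of_close (hp2 : p ≠ 2) (c : ↥(H0 (rsub Gm (Dq p))))
    (hc : nrm p (uval c ^ (p - 1) - 1) ≤ ((p : ℝ) ^ (n + 1))⁻¹) : cycW p n (Dq p) c = 0 := by
  have hp : p.Prime := Fact.out
  have hp1 : (1 : ℝ) < p := by exact_mod_cast hp.one_lt
  have huW : uval c ^ (p - 1) ∈ Places.Fix (Dq p) := by
    rw [← uval_nsmul]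
    exact uval_mem_Fix _
  have hle : nrm p (uval c ^ (p - 1) - 1) ≤ nrm p (p : Qbar) ^ (n + 1) := by
    rw [nrm_natCast_self, inv_pow]
    exact hc
  have hlt : nrm p (uval c ^ (p - 1) - 1) < 1 := by
    refine lt_of_le_of_lt hc ?_
    exact inv_lt_one_of_one_lt₀ (one_lt_pow₀ hp1 (by omega))
  obtain ⟨α, hαW, hαp, -, -⟩ :=
    exists_pow_pow_eq_mem_Fix (q := p) hp hp2 (le_refl (Dq p)) n huW hlt hle
  have hα0 : α ≠ 0 := by
    rintro rfl
    rw [zero_pow (pow_ne_zero _ hp.ne_zero)] at hαp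
    exact pow_ne_zero _ (uval_ne_zero c) hαp.symm
  obtain ⟨w, hw⟩ := exists_uval_eq hαW hα0
  have hcw : (p - 1) • c = p ^ n • w :=
    uval_injective (by rw [uval_nsmul, uval_nsmul, hw, hαp])
  have h1 : (p - 1) • cycW p n (Dq p) c = 0 := by
    rw [cycW, ← cycCl_nsmul, hcw, cycCl_nsmul]
    exact smul_cycCl _ _ _ _ w
  have hpn : p ^ n • cycW p n (Dq p) c = 0 := smul_cycCl _ _ _ _ c
  refine eq_zero_of_coprime_smul ?_ h1 hpn
  apply Nat.Coprime.pow_right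
  have h := (Nat.coprime_self_sub_right (n := p) (m := 1) hp.one_le).mpr (Nat.coprime_one_right p)
  exact h.symm

/-- (f) -/
theorem cycW_eq_zero_of_Psi (hp2 : p ≠ 2) (c : ↥(H0 Gm)) {b : ℚ} (hb : b ≠ 0)
    (hc : uval c = (b : Qbar)) (h : Psi p n b = 0) :
    cycW p n (Dq p) ((Pair.res Lall Gm (Dq p)).map0 c) = 0 := by
  have hp : p.Prime := Fact.out
  have hp0 : (p : ℚ) ≠ 0 := by exact_mod_cast hp.ne_zero
  set v : ℤ := padicValRat p b with hv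
  have hpv0 : (p : ℚ) ^ v ≠ 0 := zpow_ne_zero _ hp0
  set b' : ℚ := b / (p : ℚ) ^ v with hb'
  have hb'0 : b' ≠ 0 := div_ne_zero hb hpv0
  have hvb' : padicValRat p b' = 0 := by
    rw [hb', padicValRat.div hb hpv0, padicValRat.zpow, padicValRat.self hp.one_lt, mul_one,
      sub_self]
  have hPsi' : Psi p n b' = 0 := by
    rw [hb', Psi_div hb hpv0, Psi_zpow, Psi_self, h, smul_zero, sub_zero]
  have hclose := close_of_Psi_eq_zero hp2 hb'0 hvb' hPsi'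
  obtain ⟨cp, hcp⟩ := exists_uval_eq_rat hp0
  obtain ⟨c', hc'⟩ := exists_uval_eq_rat hb'0
  have hcp' : uval cp = (p : Qbar) := by rw [hcp, Rat.cast_natCast]
  have hdecomp : c = v • cp + c' := by
    apply uval_injective
    rw [uval_add, uval_zsmul, hc, hcp, hc', ← Rat.cast_zpow, ← Rat.cast_mul, hb',
      mul_div_cancel₀ _ hpv0]
  have hres : ∀ x : ↥(H0 Gm), cycW p n (Dq p) ((Pair.res Lall Gm (Dq p)).map0 x) =
      (Pair.res Lall Gm (Dq p)).map2 (cycCl Lall Gm (chi p n) chi_isLevel x) := fun x =>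
    (res_cycCl_sub Lall Gm (chi p n) chi_isLevel (Dq p) x).symm
  have hc'0 : cycW p n (Dq p) ((Pair.res Lall Gm (Dq p)).map0 c') = 0 := by
    apply cycW_of_close hp2
    rw [uval_res, hc']
    have : ((b' : Qbar) ^ (p - 1) - 1) = ((b' ^ (p - 1) - 1 : ℚ) : Qbar) := by push_cast; rfl
    rw [this, nrm_ratCast]
    have h2 : ((padicNorm p (b' ^ (p - 1) - 1) : ℚ) : ℝ) ≤ ((((p : ℚ) ^ (n + 1))⁻¹ : ℚ) : ℝ) :=
      Rat.cast_le.mpr hclose
    simpa using h2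
  rw [hres, hdecomp, cycCl_add, cycCl_zsmul, cycCl_top_p hp2 cp hcp', smul_zero, zero_add, ← hres,
    hc'0]

end Fermat.Agent.S55.Recip

end
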