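import Fermat.Agent.S55.B.Recip.LocVanish
import Fermat.Agent.S55.B.Recip.Tame2
import Fermat.Agent.S55.B.Recip.WildE
import Fermat.Agent.S55.B.Recip.WildF

/-!
# S55 (B/Recip), task S55/R-Main: the reciprocity law (G1).

Choose `n ≥ 1` with `ψ_n(l) ≠ 0` for all `l ∈ S`, `l ≠ p` (`exists_psiNat_ne_zero`, max over `S`).
For `l ∈ S`, `l ≠ p`: `lam_l` from `exists_lam_tame`.  `f z := ∑_{l ∈ S, l ≠ p} lam_l (loc_l z)`.
For `z`: `ι₂ (infl z) = ⟨χ_n, c⟩` (`exists_cycCl_eq`), `uval c = b ∈ ℚˣ` (`exists_rat_of_H0`).  For every prime `l`: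
`ι₂ (loc_l z) = res_{D_l} ι₂ (infl z) = ⟨χ_l, res c⟩` (`res_ι2_top`, `res_cycCl_sub`; `key_loc`).
* `l ∉ S`: `loc_l z = 0` (`URHyp`), so `v_l(b) • ψ(l) = 0` (`tame_of_cycCl_eq_zero`, `nrm_rat_eq`).
* `l ∈ S`, `l ≠ p`: `jn (lam_l (loc_l z)) = v_l(b) • ψ(l)`.
* `Ψ(b) = ∑_{l ∈ S} v_l(b) • ψ(l) = jn (f z)` (`Psi_eq_sum`, `psiNat_self`).
* `loc_p z = 0 ⟺ ⟨χ_p, res c⟩ = 0 ⟺ Ψ(b) = 0 ⟺ f z = 0` (`ι2_injective`, `Psi_eq_zero_of_cycW`,
  `cycW_eq_zero_of_Psi`, `jn_injective`).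
Conclude with `exists_equiv_of_ker_eq`.
-/

set_option autoImplicit false

noncomputable section

namespace Fermat.Agent.S55.Recip

open Places ExtCitation Module

/-- linear algebra: two maps with the same kernel, the first into a line -/
theorem exists_equiv_of_ker_eq {F V P : Type} [Field F] [AddCommGroup V] [Module F V]
    [AddCommGroup P] [Module F P] (h1 : finrank F P = 1) (loc : V →ₗ[F] P) (f : V →ₗ[F] F)
    (h : ∀ z, loc z = 0 ↔ f z = 0) : ∃ lam : P ≃ₗ[F] F, ∀ z, lam (loc z) = - f z := by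
  -- a nonzero vector `e` with `loc z = (- f z) • e`
  obtain ⟨e, he, hloc⟩ : ∃ e : P, e ≠ 0 ∧ ∀ z, loc z = (- f z) • e := by
    by_cases hf : ∀ z, f z = 0
    · have : Nontrivial P := Module.nontrivial_of_finrank_pos (R := F) (by omega)
      obtain ⟨e, he⟩ := exists_ne (0 : P)
      exact ⟨e, he, fun z => by rw [hf z, neg_zero, zero_smul, h z, hf z]⟩
    · push Not at hf
      obtain ⟨z₀, hz₀⟩ := hf
      have hl₀ : loc z₀ ≠ 0 := fun h0 => hz₀ ((h z₀).1 h0)
      refine ⟨(- f z₀)⁻¹ • loc z₀, smul_ne_zero (inv_ne_zero (neg_ne_zero.2 hz₀)) hl₀, fun z => ?_⟩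
      have h1 : f (z - (f z / f z₀) • z₀) = 0 := by
        rw [map_sub, map_smul, smul_eq_mul, div_mul_cancel₀ _ hz₀, sub_self]
      have h2 := (h _).2 h1
      rw [map_sub, map_smul, sub_eq_zero] at h2
      rw [h2, smul_smul]
      congr 1
      field_simp
  have hbij : Function.Bijective (LinearMap.toSpanSingleton F P e) := by
    constructor
    · intro a b hab
      exact smul_left_injective F he hab
    · intro w
      obtain ⟨c, hc⟩ := (finrank_eq_one_iff_of_nonzero' e he).1 h1 w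
      exact ⟨c, hc⟩
  refine ⟨(LinearEquiv.ofBijective _ hbij).symm, fun z => ?_⟩
  rw [LinearEquiv.symm_apply_eq, hloc z]
  rfl

variable {p : ℕ} [Fact p.Prime] {n : ℕ}

/-- the localisation of `ι₂ (infl z) = ⟨χ_n, c⟩` at an arbitrary subgroup -/
theorem key_loc {S : Finset Nat.Primes} (W : Subgroup GQ) (z : H2 (LS S) (mu p)) (c : ↥(H0 Gm))
    (h : (kdTop p).ι2 ((Pair.infl LS_le_Lall (mu p)).map2 z) =
      cycCl Lall Gm (chi p n) chi_isLevel c) :
    (kdSub p W).ι2 ((Pair.res Lall (mu p) W).map2 ((Pair.infl LS_le_Lall (mu p)).map2 z)) =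
      cycW p n W ((Pair.res Lall Gm W).map0 c) := by
  rw [← res_ι2_top, h, res_cycCl_sub]

theorem exists_level (hp2 : p ≠ 2) (S : Finset Nat.Primes) :
    ∃ n : ℕ, 1 ≤ n ∧ ∀ l ∈ S, (l : ℕ) ≠ p → psiNat p n (l : ℕ) ≠ 0 := by
  classical
  have key : ∃ n₀ : ℕ, ∀ n : ℕ, n₀ ≤ n → ∀ l ∈ S, (l : ℕ) ≠ p → psiNat p n (l : ℕ) ≠ 0 := by
    induction S using Finset.induction_on with
    | empty => exact ⟨0, fun n _ l hl => absurd hl (Finset.notMem_empty l)⟩
    | insert a S _ ih =>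
      obtain ⟨n₀, h₀⟩ := ih
      by_cases ha : (a : ℕ) = p
      · refine ⟨n₀, fun n hn l hl hlp => ?_⟩
        rcases Finset.mem_insert.1 hl with rfl | hl
        · exact absurd ha hlp
        · exact h₀ n hn l hl hlp
      · obtain ⟨n₁, h₁⟩ := exists_psiNat_ne_zero (p := p) hp2 a.2 ha
        refine ⟨max n₀ n₁, fun n hn l hl hlp => ?_⟩
        rcases Finset.mem_insert.1 hl with rfl | hl
        · exact h₁ n (le_trans (le_max_right _ _) hn)
        · exact h₀ n (le_trans (le_max_left _ _) hn) l hl hlp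
  obtain ⟨n₀, h₀⟩ := key
  exact ⟨max 1 n₀, le_max_left _ _, h₀ _ (le_max_right _ _)⟩

/-- primes are prime -/
theorem Main_fact (l : Nat.Primes) : Fact (l : ℕ).Prime := ⟨l.2⟩

attribute [local instance] Main_fact

/-- `exists_lam_tame` in terms of `DqP` -/
theorem Main_exists_lam (hn : 1 ≤ n) (l : Nat.Primes) (hL : LineHyp p)
    (hψ : (l : ℕ) ≠ p → psiNat p n (l : ℕ) ≠ 0) :
    ∃ lam : H2 (Lall.sub (DqP l)) (rsub (mu p) (DqP l)) ≃ₗ[ZMod p] ZMod p, (l : ℕ) ≠ p →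
      ∀ (x : H2 (Lall.sub (DqP l)) (rsub (mu p) (DqP l))) (c : ↥(H0 (rsub Gm (DqP l)))) (k : ℤ),
        nrm (l : ℕ) (uval c) = ((l : ℕ) : ℝ) ^ (-k) → (kdSub p (DqP l)).ι2 x = cycW p n (DqP l) c →
        jn p n (lam x) = k • psiNat p n (l : ℕ) := by
  by_cases hl : (l : ℕ) = p
  · obtain ⟨lam, -⟩ := exists_equiv_of_ker_eq (V := ZMod p) (hL l) 0 0 (fun z => by simp)
    exact ⟨lam, fun h => absurd hl h⟩
  · obtain ⟨lam, hlam⟩ := exists_lam_tame (q := (l : ℕ)) hn hl (hψ hl) (hL l)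
    exact ⟨lam, fun _ => hlam⟩

/-- **(G1) reciprocity** -/
theorem recip (hp2 : p ≠ 2) (S : Finset Nat.Primes) (hpS : pPrime p ∈ S)
    (hH : HasseHyp p) (hU : URHyp p S) (hL : LineHyp p) (hK : KillHyp p) :
    ∃ lam : ∀ v : ↥S, H2 (Lall.sub (DqP v.1)) (rsub (mu p) (DqP v.1)) ≃ₗ[ZMod p] ZMod p,
      ∀ z : H2 (LS S) (mu p), ∑ v, lam v (((arithDatum p S hpS).loc v (mu p)).map2 z) = 0 := by
  classical
  obtain ⟨n, hn, hψ⟩ := exists_level hp2 S
  -- the localisation maps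
  let locv : ∀ l : Nat.Primes,
      H2 (LS S) (mu p) →ₗ[ZMod p] H2 (Lall.sub (DqP l)) (rsub (mu p) (DqP l)) :=
    fun l => (Pair.res Lall (mu p) (DqP l)).map2.comp (Pair.infl LS_le_Lall (mu p)).map2
  have hloc_eq : ∀ v : ↥S, ((arithDatum p S hpS).loc v (mu p)).map2 = locv v.1 :=
    fun v => Pair.map2_comp _ _
  choose lam' hlam' using fun v : ↥S => Main_exists_lam hn v.1 hL (hψ v.1 v.2)
  let v₀ : ↥S := ⟨pPrime p, hpS⟩
  have hne : ∀ v : ↥S, v ≠ v₀ → (v.1 : ℕ) ≠ p := fun v hv h => hv (Subtype.ext (Subtype.ext h))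
  let f : H2 (LS S) (mu p) →ₗ[ZMod p] ZMod p :=
    ∑ v ∈ Finset.univ.erase v₀, (lam' v).toLinearMap.comp (locv v.1)
  have hf : ∀ z, f z = ∑ v ∈ Finset.univ.erase v₀, lam' v (locv v.1 z) := fun z => by
    simp [f, LinearMap.sum_apply]
  have key : ∀ z, locv (pPrime p) z = 0 ↔ f z = 0 := by
    intro z
    obtain ⟨c, hc⟩ := exists_cycCl_eq hp2 hn hH hU hK hψ z
    obtain ⟨b, hb, hcb⟩ := exists_rat_of_H0 c
    have hkey : ∀ l : Nat.Primes, (kdSub p (DqP l)).ι2 (locv l z) =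
        cycW p n (DqP l) ((Pair.res Lall Gm (DqP l)).map0 c) := fun l => key_loc (DqP l) z c hc
    have hnrm : ∀ l : Nat.Primes, nrm (l : ℕ) (uval ((Pair.res Lall Gm (DqP l)).map0 c)) =
        ((l : ℕ) : ℝ) ^ (-(padicValRat (l : ℕ) b)) := fun l => by
      rw [uval_res, hcb]
      exact nrm_rat_eq (l : ℕ) hb
    have hout : ∀ l : Nat.Primes, l ∉ S → padicValRat (l : ℕ) b • psiNat p n (l : ℕ) = 0 := by
      intro l hl
      have hlp : (l : ℕ) ≠ p := fun h => hl (by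
        have : l = pPrime p := Subtype.ext h
        rw [this]
        exact hpS)
      have h0 : locv l z = 0 := hU l hl z
      have h1 : cycW p n (DqP l) ((Pair.res Lall Gm (DqP l)).map0 c) = 0 := by
        rw [← hkey l, h0]
        exact map_zero (kdSub p (DqP l)).ι2
      exact tame_of_cycCl_eq_zero (q := (l : ℕ)) hlp _ _ (hnrm l) h1
    have hin : ∀ v : ↥S, v ≠ v₀ → jn p n (lam' v (locv v.1 z)) =
        padicValRat (v.1 : ℕ) b • psiNat p n (v.1 : ℕ) :=
      fun v hv => hlam' v (hne v hv) _ _ _ (hnrm v.1) (hkey v.1)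
    have hPsi : Psi p n b = jn p n (f z) := by
      rw [Psi_eq_sum S b hout, hf, map_sum, ← Finset.sum_coe_sort S,
        ← Finset.add_sum_erase Finset.univ _ (Finset.mem_univ v₀)]
      have h0 : padicValRat ((v₀ : Nat.Primes) : ℕ) b • psiNat p n ((v₀ : Nat.Primes) : ℕ) = 0 := by
        have : ((v₀ : Nat.Primes) : ℕ) = p := rfl
        rw [this, psiNat_self, smul_zero]
      rw [h0, zero_add]
      exact Finset.sum_congr rfl fun v hv => (hin v (Finset.ne_of_mem_erase hv)).symm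
    constructor
    · intro h0
      have h1 : cycW p n (DqP (pPrime p)) ((Pair.res Lall Gm (DqP (pPrime p))).map0 c) = 0 := by
        rw [← hkey (pPrime p), h0]
        exact map_zero (kdSub p (DqP (pPrime p))).ι2
      have h2 := Psi_eq_zero_of_cycW hp2 c hb hcb h1
      rw [hPsi] at h2
      exact jn_injective hn (by rw [h2, map_zero])
    · intro h0
      have h2 : Psi p n b = 0 := by rw [hPsi, h0, map_zero]
      have h3 := cycW_eq_zero_of_Psi hp2 c hb hcb h2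
      apply (kdSub p (DqP (pPrime p))).ι2_injective
      refine (hkey (pPrime p)).trans (Eq.trans h3 ?_)
      exact (map_zero (kdSub p (DqP (pPrime p))).ι2).symm
  obtain ⟨lamp, hlamp⟩ := exists_equiv_of_ker_eq (hL (pPrime p)) (locv (pPrime p)) f key
  refine ⟨Function.update lam' v₀ lamp, fun z => ?_⟩
  rw [← Finset.add_sum_erase Finset.univ _ (Finset.mem_univ v₀), Function.update_self, hloc_eq]
  have h1 : ∑ v ∈ Finset.univ.erase v₀, (Function.update lam' v₀ lamp v)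
      (((arithDatum p S hpS).loc v (mu p)).map2 z) = f z := by
    rw [hf]
    refine Finset.sum_congr rfl fun v hv => ?_
    rw [Function.update_of_ne (Finset.ne_of_mem_erase hv), hloc_eq]
  rw [h1]
  have h2 : lamp (locv (v₀ : Nat.Primes) z) = - f z := hlamp z
  rw [h2]
  exact neg_add_cancel _

end Fermat.Agent.S55.Recip

end
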