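import Mathlib

/-!
# S55 (B/Recip), task S55/R-Psi: the Dirichlet character `ψ : (ℤ/p^(n+1))ˣ → ℤ/p^n` and the function
`Ψ(b) = ∑_{q} v_q(b) ψ(q)` on `ℚˣ` (pure arithmetic, Mathlib only).

`p` odd: `(ℤ/p^(n+1))ˣ` is cyclic of order `p^n (p-1)` (Mathlib `ZMod.isCyclic_units_of_prime_pow`-type
lemma), so there is a surjection `ψ` onto `ℤ/p^n`, with kernel the elements of order dividing `p - 1`.
`psiNat a = ψ(a mod p^(n+1))` for `a` prime to `p`, `0` otherwise (in particular `psiNat p = 0`).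
`Psi b = ∑ᶠ q prime, v_q(b) • psiNat q`.  By unique factorisation `Psi a = psiNat a` for `a ∈ ℕ` prime
to `p`; `Psi (-1) = 0`, `Psi p = 0`.
-/

set_option autoImplicit false

noncomputable section

namespace Fermat.Agent.S55.Recip

namespace PsiAux

/-- a cyclic group of order `a * b` surjects onto `ℤ/a` with kernel the `b`-torsion -/
theorem exists_hom_of_cyclic {G : Type*} [Group G] (hG : IsCyclic G) (a b : ℕ) (ha : 0 < a)
    (hb : 0 < b) (hcard : Nat.card G = a * b) :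
    ∃ ψ : G →* Multiplicative (ZMod a), Function.Surjective ψ ∧ ∀ u, ψ u = 1 ↔ u ^ b = 1 := by
  have hdvd : a ∣ Nat.card G := hcard ▸ dvd_mul_right a b
  have : NeZero (Nat.card G) := ⟨by rw [hcard]; positivity⟩
  let e := zmodCyclicMulEquiv hG
  let c : ZMod (Nat.card G) →+ ZMod a := (ZMod.castHom hdvd (ZMod a)).toAddMonoidHom
  have hc : ∀ x : ZMod (Nat.card G), c x = 0 ↔ b • x = 0 := by
    intro x
    obtain ⟨k, rfl⟩ : ∃ k : ℕ, (k : ZMod (Nat.card G)) = x := ⟨x.val, ZMod.natCast_zmod_val x⟩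
    have h1 : c (k : ZMod (Nat.card G)) = (k : ZMod a) := map_natCast (ZMod.castHom hdvd (ZMod a)) k
    rw [h1, ZMod.natCast_eq_zero_iff, nsmul_eq_mul, ← Nat.cast_mul, ZMod.natCast_eq_zero_iff, hcard,
      mul_comm a b, Nat.mul_dvd_mul_iff_left hb]
  refine ⟨(AddMonoidHom.toMultiplicative c).comp e.symm.toMonoidHom, ?_, ?_⟩
  · intro y
    obtain ⟨x, hx⟩ := ZMod.castHom_surjective hdvd (Multiplicative.toAdd y)
    exact ⟨e (Multiplicative.ofAdd x), by
      simp only [MonoidHom.comp_apply, MulEquiv.coe_toMonoidHom, MulEquiv.symm_apply_apply]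
      exact congrArg Multiplicative.ofAdd hx⟩
  · intro u
    have h2 : ((AddMonoidHom.toMultiplicative c).comp e.symm.toMonoidHom) u = 1
        ↔ c (Multiplicative.toAdd (e.symm u)) = 0 := Iff.rfl
    rw [h2, hc]
    have h3 : b • Multiplicative.toAdd (e.symm u) = Multiplicative.toAdd (e.symm (u ^ b)) := by
      rw [map_pow, toAdd_pow]
    rw [h3]
    constructor
    · intro h
      have : e.symm (u ^ b) = 1 := h
      exact (MulEquiv.map_eq_one_iff e.symm).mp this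
    · intro h
      rw [h, map_one]
      rfl

end PsiAux

variable (p : ℕ) [Fact p.Prime] (n : ℕ)

theorem exists_psi (hp2 : p ≠ 2) :
    ∃ ψ : (ZMod (p ^ (n + 1)))ˣ →* Multiplicative (ZMod (p ^ n)),
      Function.Surjective ψ ∧ ∀ u, ψ u = 1 ↔ u ^ (p - 1) = 1 := by
  have hp : p.Prime := Fact.out
  refine PsiAux.exists_hom_of_cyclic (ZMod.isCyclic_units_of_prime_pow p hp hp2 (n + 1)) (p ^ n)
    (p - 1) (pow_pos hp.pos n) (Nat.sub_pos_of_lt hp.one_lt) ?_
  have : NeZero (p ^ (n + 1)) := ⟨pow_ne_zero _ hp.ne_zero⟩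
  rw [Nat.card_eq_fintype_card, ZMod.card_units_eq_totient, Nat.totient_prime_pow_succ hp]

/-- the character `ψ` (junk for `p = 2`) -/
def psi : (ZMod (p ^ (n + 1)))ˣ →* Multiplicative (ZMod (p ^ n)) :=
  Classical.epsilon fun ψ => Function.Surjective ψ ∧ ∀ u, ψ u = 1 ↔ u ^ (p - 1) = 1

theorem psi_surjective (hp2 : p ≠ 2) : Function.Surjective (psi p n) :=
  (Classical.epsilon_spec (exists_psi p n hp2)).1

theorem psi_eq_one_iff (hp2 : p ≠ 2) (u : (ZMod (p ^ (n + 1)))ˣ) :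
    psi p n u = 1 ↔ u ^ (p - 1) = 1 :=
  (Classical.epsilon_spec (exists_psi p n hp2)).2 u

/-- `ψ` on natural numbers -/
def psiNat (a : ℕ) : ZMod (p ^ n) :=
  if h : Nat.Coprime a (p ^ (n + 1)) then Multiplicative.toAdd (psi p n (ZMod.unitOfCoprime a h))
  else 0

variable {p n}

theorem psiNat_of_coprime {a : ℕ} (h : Nat.Coprime a (p ^ (n + 1))) :
    psiNat p n a = Multiplicative.toAdd (psi p n (ZMod.unitOfCoprime a h)) := dif_pos h

/-- characterisation through any unit with the right value -/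
theorem psiNat_eq_of_unit {a : ℕ} (u : (ZMod (p ^ (n + 1)))ˣ)
    (hu : (u : ZMod (p ^ (n + 1))) = (a : ZMod (p ^ (n + 1)))) :
    psiNat p n a = Multiplicative.toAdd (psi p n u) := by
  have h : Nat.Coprime a (p ^ (n + 1)) := (ZMod.isUnit_iff_coprime a _).mp (hu ▸ u.isUnit)
  rw [psiNat_of_coprime h]
  congr 2
  exact Units.ext (by rw [ZMod.coe_unitOfCoprime, hu])

namespace PsiAux

theorem coprime_pow {a : ℕ} (ha : Nat.Coprime a p) : Nat.Coprime a (p ^ (n + 1)) :=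
  Nat.Coprime.pow_right _ ha

theorem coprime_of_pow {a : ℕ} (ha : Nat.Coprime a (p ^ (n + 1))) : Nat.Coprime a p :=
  (Nat.coprime_pow_right_iff (Nat.succ_pos n) a p).mp ha

theorem psiNat_of_not_coprime {a : ℕ} (ha : ¬ Nat.Coprime a p) : psiNat p n a = 0 :=
  dif_neg fun h => ha (coprime_of_pow h)

end PsiAux

open PsiAux

theorem psiNat_self : psiNat p n p = 0 := by
  apply psiNat_of_not_coprime
  rw [Nat.coprime_self]
  exact (Fact.out : p.Prime).ne_one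

theorem psiNat_one : psiNat p n 1 = 0 := by
  rw [psiNat_eq_of_unit 1 (by simp), map_one]
  rfl

theorem psiNat_mul {a b : ℕ} (ha : Nat.Coprime a p) (hb : Nat.Coprime b p) :
    psiNat p n (a * b) = psiNat p n a + psiNat p n b := by
  rw [psiNat_of_coprime (coprime_pow ha), psiNat_of_coprime (coprime_pow hb),
    psiNat_eq_of_unit (ZMod.unitOfCoprime a (coprime_pow ha) * ZMod.unitOfCoprime b (coprime_pow hb))
      (by simp), map_mul, toAdd_mul]

theorem psiNat_pow {a : ℕ} (ha : Nat.Coprime a p) (k : ℕ) :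
    psiNat p n (a ^ k) = k • psiNat p n a := by
  rw [psiNat_of_coprime (coprime_pow ha),
    psiNat_eq_of_unit (ZMod.unitOfCoprime a (coprime_pow ha) ^ k) (by simp), map_pow, toAdd_pow]

theorem psiNat_congr {a b : ℕ} (h : a ≡ b [MOD p ^ (n + 1)]) : psiNat p n a = psiNat p n b := by
  have hab : (a : ZMod (p ^ (n + 1))) = b := (ZMod.natCast_eq_natCast_iff a b _).mpr h
  by_cases ha : Nat.Coprime a (p ^ (n + 1))
  · rw [psiNat_of_coprime ha]
    exact (psiNat_eq_of_unit _ (by rw [ZMod.coe_unitOfCoprime, hab])).symm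
  · have hb : ¬ Nat.Coprime b (p ^ (n + 1)) := by
      rw [← ZMod.isUnit_iff_coprime, ← hab, ZMod.isUnit_iff_coprime]
      exact ha
    rw [psiNat, psiNat, dif_neg ha, dif_neg hb]

namespace PsiAux

/-- `ψ(a) = 0` iff `a^(p-1) ≡ 1`. -/
theorem psiNat_eq_zero_iff (hp2 : p ≠ 2) {a : ℕ} (ha : Nat.Coprime a p) :
    psiNat p n a = 0 ↔ ((a : ZMod (p ^ (n + 1))) ^ (p - 1) = 1) := by
  rw [psiNat_of_coprime (coprime_pow ha)]
  have h1 : Multiplicative.toAdd (psi p n (ZMod.unitOfCoprime a (coprime_pow ha))) = 0 ↔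
      psi p n (ZMod.unitOfCoprime a (coprime_pow ha)) = 1 := Iff.rfl
  rw [h1, psi_eq_one_iff p n hp2, Units.ext_iff]
  simp

end PsiAux

/-- `ψ_n(q) ≠ 0` for `n` large  (`ψ_n(q) = 0` iff `p^(n+1) ∣ q^(p-1) - 1`, and `q^(p-1) ≠ 1`) -/
theorem exists_psiNat_ne_zero (hp2 : p ≠ 2) {q : ℕ} (hq : q.Prime) (hqp : q ≠ p) :
    ∃ n₀ : ℕ, ∀ n : ℕ, n₀ ≤ n → psiNat p n q ≠ 0 := by
  have hp : p.Prime := Fact.out
  have hcop : Nat.Coprime q p := (Nat.coprime_primes hq hp).mpr hqp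
  refine ⟨q ^ (p - 1), fun n hn h0 => ?_⟩
  rw [psiNat_eq_zero_iff hp2 hcop] at h0
  have h1 : ((q ^ (p - 1) : ℕ) : ZMod (p ^ (n + 1))) = ((1 : ℕ) : ZMod (p ^ (n + 1))) := by
    push_cast
    exact h0
  rw [ZMod.natCast_eq_natCast_iff] at h1
  have h2 : 1 < q ^ (p - 1) := Nat.one_lt_pow (Nat.sub_pos_of_lt hp.one_lt).ne' hq.one_lt
  have h3 : p ^ (n + 1) ∣ q ^ (p - 1) - 1 := (Nat.modEq_iff_dvd' h2.le).mp h1.symm
  have h4 : p ^ (n + 1) ≤ q ^ (p - 1) - 1 := Nat.le_of_dvd (Nat.sub_pos_of_lt h2) h3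
  have h5 : n + 1 < p ^ (n + 1) := Nat.lt_pow_self hp.one_lt
  omega

variable (p n)

/-- `Ψ(b) = ∑_q v_q(b) ψ(q)` -/
def Psi (b : ℚ) : ZMod (p ^ n) := ∑ᶠ q : Nat.Primes, padicValRat (q : ℕ) b • psiNat p n (q : ℕ)

variable {p n}

/-- the product formula is the definition -/
theorem Psi_eq_sum (T : Finset Nat.Primes) (b : ℚ)
    (h : ∀ q : Nat.Primes, q ∉ T → padicValRat (q : ℕ) b • psiNat p n (q : ℕ) = 0) :
    Psi p n b = ∑ q ∈ T, padicValRat (q : ℕ) b • psiNat p n (q : ℕ) := by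
  apply finsum_eq_sum_of_support_subset
  intro q hq
  by_contra hqT
  exact hq (h q hqT)

namespace PsiAux

theorem finite_padicValRat (b : ℚ) : {q : Nat.Primes | padicValRat (q : ℕ) b ≠ 0}.Finite := by
  by_cases hb : b = 0
  · subst hb
    simp
  have hnum : b.num.natAbs ≠ 0 := by
    rw [Int.natAbs_ne_zero]
    exact Rat.num_ne_zero.mpr hb
  have hfin : ((fun q : Nat.Primes => (q : ℕ)) ⁻¹' (Set.Iic (b.num.natAbs * b.den))).Finite :=
    (Set.finite_Iic _).preimage (Nat.Primes.coe_nat_injective.injOn)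
  refine hfin.subset ?_
  intro q hq
  have hq' : padicValRat (q : ℕ) b ≠ 0 := hq
  show (q : ℕ) ≤ b.num.natAbs * b.den
  have hpos : 0 < b.num.natAbs * b.den := Nat.mul_pos (Nat.pos_of_ne_zero hnum) b.den_pos
  rw [padicValRat] at hq'
  have hor : padicValInt (q : ℕ) b.num ≠ 0 ∨ padicValNat (q : ℕ) b.den ≠ 0 := by
    by_contra hcon
    push Not at hcon
    rw [hcon.1, hcon.2] at hq'
    simp at hq'
  rcases hor with h | h
  · have h1 : (q : ℕ) ∣ b.num.natAbs := by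
      rw [padicValInt] at h
      exact dvd_of_one_le_padicValNat (Nat.one_le_iff_ne_zero.mpr h)
    exact Nat.le_of_dvd hpos (h1.mul_right _)
  · have h1 : (q : ℕ) ∣ b.den := dvd_of_one_le_padicValNat (Nat.one_le_iff_ne_zero.mpr h)
    exact Nat.le_of_dvd hpos (h1.mul_left _)

theorem hasFiniteSupport (b : ℚ) :
    Function.HasFiniteSupport
      (fun q : Nat.Primes => padicValRat (q : ℕ) b • psiNat p n (q : ℕ)) := by
  refine (finite_padicValRat b).subset ?_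
  intro q hq h0
  apply hq
  show padicValRat (q : ℕ) b • psiNat p n (q : ℕ) = 0
  rw [h0, zero_smul]

theorem Psi_zero : Psi p n 0 = 0 := by
  simp [Psi]

end PsiAux

theorem Psi_one : Psi p n 1 = 0 := by
  simp [Psi]

theorem Psi_mul {b c : ℚ} (hb : b ≠ 0) (hc : c ≠ 0) : Psi p n (b * c) = Psi p n b + Psi p n c := by
  rw [Psi, Psi, Psi, ← finsum_add_distrib (hasFiniteSupport b) (hasFiniteSupport c)]
  refine finsum_congr fun q => ?_
  have : Fact (q : ℕ).Prime := ⟨q.2⟩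
  rw [padicValRat.mul hb hc, add_smul]

theorem Psi_inv (b : ℚ) : Psi p n b⁻¹ = - Psi p n b := by
  rw [Psi, Psi, ← finsum_neg_distrib]
  refine finsum_congr fun q => ?_
  have : Fact (q : ℕ).Prime := ⟨q.2⟩
  rw [padicValRat.inv, neg_smul]

theorem Psi_div {b c : ℚ} (hb : b ≠ 0) (hc : c ≠ 0) : Psi p n (b / c) = Psi p n b - Psi p n c := by
  rw [div_eq_mul_inv, Psi_mul hb (inv_ne_zero hc), Psi_inv, sub_eq_add_neg]

theorem Psi_neg (b : ℚ) : Psi p n (-b) = Psi p n b := by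
  rw [Psi, Psi]
  refine finsum_congr fun q => ?_
  rw [padicValRat.neg]

theorem Psi_zpow (b : ℚ) (k : ℤ) : Psi p n (b ^ k) = k • Psi p n b := by
  rw [Psi, Psi, smul_finsum' k (hasFiniteSupport b)]
  refine finsum_congr fun q => ?_
  have : Fact (q : ℕ).Prime := ⟨q.2⟩
  rw [padicValRat.zpow, mul_smul]

namespace PsiAux

theorem padicValRat_prime_of_ne {q r : ℕ} (hq : q.Prime) (hr : r.Prime) (h : q ≠ r) :
    padicValRat q (r : ℚ) = 0 := by
  have : Fact q.Prime := ⟨hq⟩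
  have : Fact r.Prime := ⟨hr⟩
  rw [padicValRat.of_nat, padicValNat_primes h]
  rfl

theorem Psi_prime {r : ℕ} (hr : r.Prime) : Psi p n (r : ℚ) = psiNat p n r := by
  obtain ⟨r', rfl⟩ : ∃ r' : Nat.Primes, (r' : ℕ) = r := ⟨⟨r, hr⟩, rfl⟩
  rw [Psi, finsum_eq_single _ r']
  · rw [padicValRat.self hr.one_lt, one_smul]
  · intro q hq
    have hne : (q : ℕ) ≠ r' := fun h => hq (Subtype.ext h)
    rw [padicValRat_prime_of_ne q.2 hr hne, zero_smul]

end PsiAux

theorem Psi_self : Psi p n (p : ℚ) = 0 := by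
  rw [Psi_prime Fact.out, psiNat_self]

theorem Psi_natCast {a : ℕ} (ha : Nat.Coprime a p) : Psi p n (a : ℚ) = psiNat p n a := by
  have hp : p.Prime := Fact.out
  induction a using Nat.recOnMul with
  | zero =>
    rw [Nat.coprime_zero_left] at ha
    exact absurd ha hp.ne_one
  | one => rw [Nat.cast_one, Psi_one, psiNat_one]
  | prime r hr => exact Psi_prime hr
  | mul a b iha ihb =>
    have ha1 : Nat.Coprime a p := Nat.Coprime.coprime_mul_right ha
    have hb1 : Nat.Coprime b p := Nat.Coprime.coprime_mul_left ha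
    have ha0 : (a : ℚ) ≠ 0 := by
      rw [Nat.cast_ne_zero]
      rintro rfl
      rw [Nat.coprime_zero_left] at ha1
      exact hp.ne_one ha1
    have hb0 : (b : ℚ) ≠ 0 := by
      rw [Nat.cast_ne_zero]
      rintro rfl
      rw [Nat.coprime_zero_left] at hb1
      exact hp.ne_one hb1
    rw [Nat.cast_mul, Psi_mul ha0 hb0, iha ha1, ihb hb1, psiNat_mul ha1 hb1]

namespace PsiAux

theorem psi_neg_one (hp2 : p ≠ 2) : psi p n (-1) = 1 := by
  rw [psi_eq_one_iff p n hp2]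
  exact ((Fact.out : p.Prime).even_sub_one hp2).neg_one_pow

theorem psiNat_natAbs (hp2 : p ≠ 2) {a : ℤ} {c : ℕ} (hc : Nat.Coprime c p)
    (h : (a : ZMod (p ^ (n + 1))) = (c : ZMod (p ^ (n + 1)))) :
    psiNat p n a.natAbs = psiNat p n c := by
  rw [psiNat_of_coprime (coprime_pow hc)]
  rcases Int.natAbs_eq a with h1 | h1
  · apply psiNat_eq_of_unit
    rw [ZMod.coe_unitOfCoprime, ← h]
    conv_lhs => rw [h1]
    rw [Int.cast_natCast]
  · rw [psiNat_eq_of_unit (-1 * ZMod.unitOfCoprime c (coprime_pow hc)), map_mul, psi_neg_one hp2,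
      one_mul]
    rw [Units.val_mul, ZMod.coe_unitOfCoprime, ← h]
    conv_lhs => rw [h1]
    simp

theorem Psi_intCast (a : ℤ) : Psi p n (a : ℚ) = Psi p n (a.natAbs : ℚ) := by
  rcases Int.natAbs_eq a with h1 | h1
  · conv_lhs => rw [h1]
    rw [Int.cast_natCast]
  · conv_lhs => rw [h1]
    rw [Int.cast_neg, Int.cast_natCast, Psi_neg]

theorem coprime_of_not_dvd {a : ℕ} (h : ¬ p ∣ a) : Nat.Coprime a p :=
  ((Nat.Prime.coprime_iff_not_dvd Fact.out).mpr h).symm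

theorem Psi_eq_sub {b : ℚ} (hnum : ¬ p ∣ b.num.natAbs) (hden : ¬ p ∣ b.den) :
    Psi p n b = psiNat p n b.num.natAbs - psiNat p n b.den := by
  have hn0 : (b.num : ℚ) ≠ 0 := by
    rw [Int.cast_ne_zero]
    intro h
    rw [h] at hnum
    exact hnum (dvd_zero _)
  have hd0 : (b.den : ℚ) ≠ 0 := Nat.cast_ne_zero.mpr b.den_nz
  conv_lhs => rw [← Rat.num_div_den b]
  rw [Psi_div hn0 hd0, Psi_intCast, Psi_natCast (coprime_of_not_dvd hnum),
    Psi_natCast (coprime_of_not_dvd hden)]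

theorem inv_pow_eq_zpow (k : ℕ) : ((p : ℚ) ^ k)⁻¹ = (p : ℚ) ^ (-(k : ℤ)) := by
  rw [zpow_neg, zpow_natCast]

end PsiAux

/-- (Ψ2) `u ≡ 1 mod p^(n+1)` ⟹ `Ψ(u) = 0`.  [`u = a/c`, `a ≡ ± c`, `ψ(-1) = 0` since `p^n` is odd.] -/
theorem Psi_eq_zero_of_close (hp2 : p ≠ 2) {u : ℚ}
    (hu : padicNorm p (u - 1) ≤ ((p : ℚ) ^ (n + 1))⁻¹) : Psi p n u = 0 := by
  have hp : p.Prime := Fact.out
  have e1 : (((u.num - (u.den : ℤ)) : ℤ) : ℚ) = (u - 1) * (u.den : ℚ) := by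
    push_cast
    rw [sub_mul, one_mul, Rat.mul_den_eq_num]
  have h1 : padicNorm p (((u.num - (u.den : ℤ)) : ℤ) : ℚ) ≤ (p : ℚ) ^ (-((n + 1 : ℕ) : ℤ)) := by
    rw [e1, padicNorm.mul, ← inv_pow_eq_zpow]
    calc padicNorm p (u - 1) * padicNorm p (u.den : ℚ) ≤ padicNorm p (u - 1) * 1 :=
          mul_le_mul_of_nonneg_left (padicNorm.of_nat _) (padicNorm.nonneg _)
      _ ≤ _ := by rw [mul_one]; exact hu
  have hdvd : ((p ^ (n + 1) : ℕ) : ℤ) ∣ u.num - (u.den : ℤ) := padicNorm.dvd_iff_norm_le.mpr h1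
  have hpd : (p : ℤ) ∣ u.num - (u.den : ℤ) := by
    refine dvd_trans ?_ hdvd
    exact_mod_cast dvd_pow_self p (Nat.succ_ne_zero n)
  have hden : ¬ p ∣ u.den := by
    intro hd
    have hd' : (p : ℤ) ∣ (u.den : ℤ) := Int.natCast_dvd_natCast.mpr hd
    have hn' : (p : ℤ) ∣ u.num := (dvd_sub_left hd').mp hpd
    exact Nat.not_coprime_of_dvd_of_dvd hp.one_lt (Int.natCast_dvd.mp hn') hd u.reduced
  have hnum : ¬ p ∣ u.num.natAbs := by
    intro hn
    have hn' : (p : ℤ) ∣ u.num := Int.natCast_dvd.mpr hn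
    have hd' : (p : ℤ) ∣ (u.den : ℤ) := (dvd_sub_right hn').mp hpd
    exact hden (Int.natCast_dvd_natCast.mp hd')
  have hcong : (u.num : ZMod (p ^ (n + 1))) = (u.den : ZMod (p ^ (n + 1))) := by
    have := (ZMod.intCast_eq_intCast_iff_dvd_sub (u.den : ℤ) u.num (p ^ (n + 1))).mpr hdvd
    rw [← this, Int.cast_natCast]
  rw [Psi_eq_sub hnum hden, psiNat_natAbs hp2 (coprime_of_not_dvd hden) hcong, sub_self]

/-- (Ψ3) `Ψ(b) = 0`, `v_p(b) = 0` ⟹ `b^(p-1) ≡ 1 mod p^(n+1)`. -/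
theorem close_of_Psi_eq_zero (hp2 : p ≠ 2) {b : ℚ} (hb : b ≠ 0) (hv : padicValRat p b = 0)
    (h : Psi p n b = 0) : padicNorm p (b ^ (p - 1) - 1) ≤ ((p : ℚ) ^ (n + 1))⁻¹ := by
  have hp : p.Prime := Fact.out
  have hnum0 : b.num ≠ 0 := Rat.num_ne_zero.mpr hb
  rw [padicValRat, sub_eq_zero] at hv
  have hv' : padicValInt p b.num = padicValNat p b.den := by exact_mod_cast hv
  have hden : ¬ p ∣ b.den := by
    intro hd
    have h1 : padicValNat p b.den ≠ 0 := by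
      rw [Ne, padicValNat.eq_zero_iff]
      push Not
      exact ⟨hp.ne_one, b.den_nz, hd⟩
    rw [← hv', Ne, padicValInt.eq_zero_iff] at h1
    push Not at h1
    exact Nat.not_coprime_of_dvd_of_dvd hp.one_lt (Int.natCast_dvd.mp h1.2.2) hd b.reduced
  have hnum : ¬ p ∣ b.num.natAbs := by
    intro hn
    have h1 : padicValNat p b.den = 0 := by
      rw [padicValNat.eq_zero_iff]
      exact Or.inr (Or.inr hden)
    rw [h1, padicValInt.eq_zero_iff] at hv'
    rcases hv' with h2 | h2 | h2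
    · exact hp.ne_one h2
    · exact hnum0 h2
    · exact h2 (Int.natCast_dvd.mpr hn)
  rw [Psi_eq_sub hnum hden, sub_eq_zero, psiNat_of_coprime (coprime_pow (coprime_of_not_dvd hnum)),
    psiNat_of_coprime (coprime_pow (coprime_of_not_dvd hden))] at h
  set ua := ZMod.unitOfCoprime b.num.natAbs (coprime_pow (n := n) (coprime_of_not_dvd hnum)) with hua
  set uc := ZMod.unitOfCoprime b.den (coprime_pow (n := n) (coprime_of_not_dvd hden)) with huc
  have h1 : psi p n ua = psi p n uc := h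
  have h2 : psi p n (ua * uc⁻¹) = 1 := by
    rw [map_mul, map_inv, h1, mul_inv_cancel]
  rw [psi_eq_one_iff p n hp2, mul_pow, inv_pow, mul_inv_eq_one] at h2
  have h3 : ((b.num.natAbs : ZMod (p ^ (n + 1)))) ^ (p - 1) = (b.den : ZMod (p ^ (n + 1))) ^ (p - 1) := by
    have := congrArg (Units.val) h2
    rw [Units.val_pow_eq_pow_val, Units.val_pow_eq_pow_val, hua, huc, ZMod.coe_unitOfCoprime,
      ZMod.coe_unitOfCoprime] at this
    exact this
  have heven : Even (p - 1) := hp.even_sub_one hp2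
  have h4 : ((b.num.natAbs : ℤ)) ^ (p - 1) = b.num ^ (p - 1) := by
    rw [Int.natCast_natAbs, heven.pow_abs]
  have h5 : (((b.den : ℤ) ^ (p - 1) : ℤ) : ZMod (p ^ (n + 1)))
      = ((b.num ^ (p - 1) : ℤ) : ZMod (p ^ (n + 1))) := by
    rw [← h4, Int.cast_pow, Int.cast_pow, Int.cast_natCast, Int.cast_natCast]
    exact h3.symm
  have hdvd : ((p ^ (n + 1) : ℕ) : ℤ) ∣ b.num ^ (p - 1) - (b.den : ℤ) ^ (p - 1) :=
    (ZMod.intCast_eq_intCast_iff_dvd_sub _ _ _).mp h5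
  have h6 := padicNorm.dvd_iff_norm_le.mp hdvd
  have e1 : (((b.num ^ (p - 1) - (b.den : ℤ) ^ (p - 1)) : ℤ) : ℚ)
      = (b ^ (p - 1) - 1) * ((b.den ^ (p - 1) : ℕ) : ℚ) := by
    push_cast
    rw [sub_mul, one_mul, ← mul_pow, Rat.mul_den_eq_num]
  have h7 : padicNorm p ((b.den ^ (p - 1) : ℕ) : ℚ) = 1 := by
    rw [padicNorm.nat_eq_one_iff]
    exact fun hd => hden (hp.dvd_of_dvd_pow hd)
  rw [e1, padicNorm.mul, h7, mul_one, ← inv_pow_eq_zpow] at h6
  exact h6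

variable (p n)

/-- `𝔽_p ↪ ℤ/p^n`, `a ↦ p^(n-1) a` -/
def jn : ZMod p →+ ZMod (p ^ n) :=
  ZMod.lift p ⟨zmultiplesHom _ ((p : ZMod (p ^ n)) ^ (n - 1)), by
    rcases n with _ | n
    · exact Subsingleton.elim (α := ZMod 1) _ _
    · simp only [zmultiplesHom_apply, natCast_zsmul, nsmul_eq_mul, Nat.add_sub_cancel]
      rw [← pow_succ']
      exact_mod_cast ZMod.natCast_self (p ^ (n + 1))⟩

variable {p n}

namespace PsiAux

theorem jn_natCast (k : ℕ) : jn p n (k : ZMod p) = ((k * p ^ (n - 1) : ℕ) : ZMod (p ^ n)) := by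
  have h := ZMod.lift_coe p (A := ZMod (p ^ n)) ⟨zmultiplesHom _ ((p : ZMod (p ^ n)) ^ (n - 1)), by
    rcases n with _ | n
    · exact Subsingleton.elim (α := ZMod 1) _ _
    · simp only [zmultiplesHom_apply, natCast_zsmul, nsmul_eq_mul, Nat.add_sub_cancel]
      rw [← pow_succ']
      exact_mod_cast ZMod.natCast_self (p ^ (n + 1))⟩ (k : ℤ)
  rw [Int.cast_natCast] at h
  rw [jn, h]
  simp

end PsiAux

theorem jn_injective (hn : 1 ≤ n) : Function.Injective (jn p n) := by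
  have hp : p.Prime := Fact.out
  rw [injective_iff_map_eq_zero]
  intro a ha
  obtain ⟨k, rfl⟩ : ∃ k : ℕ, (k : ZMod p) = a := ⟨a.val, ZMod.natCast_zmod_val a⟩
  rw [jn_natCast, ZMod.natCast_eq_zero_iff] at ha
  obtain ⟨m, rfl⟩ : ∃ m, n = m + 1 := ⟨n - 1, by omega⟩
  rw [Nat.add_sub_cancel, pow_succ', mul_comm k, mul_comm p,
    Nat.mul_dvd_mul_iff_left (pow_pos hp.pos m)] at ha
  exact (ZMod.natCast_eq_zero_iff k p).mpr ha

/-- the image of `jn` is the `p`-torsion -/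
theorem exists_jn_eq (hn : 1 ≤ n) {x : ZMod (p ^ n)} (hx : p • x = 0) : ∃ a, jn p n a = x := by
  have hp : p.Prime := Fact.out
  have : NeZero (p ^ n) := ⟨pow_ne_zero _ hp.ne_zero⟩
  obtain ⟨k, rfl⟩ : ∃ k : ℕ, (k : ZMod (p ^ n)) = x := ⟨x.val, ZMod.natCast_zmod_val x⟩
  obtain ⟨m, rfl⟩ : ∃ m, n = m + 1 := ⟨n - 1, by omega⟩
  rw [nsmul_eq_mul, ← Nat.cast_mul, ZMod.natCast_eq_zero_iff, pow_succ', 
    Nat.mul_dvd_mul_iff_left hp.pos] at hx
  obtain ⟨c, rfl⟩ := hx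
  refine ⟨(c : ZMod p), ?_⟩
  rw [jn_natCast, Nat.add_sub_cancel, mul_comm]

theorem jn_natCast_mul (k : ℕ) (a : ZMod p) : jn p n ((k : ZMod p) * a) = k • jn p n a := by
  rw [← nsmul_eq_mul, map_nsmul]

end Fermat.Agent.S55.Recip

end
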