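import Fermat.Agent.S55.B.Recip.Chi
import Fermat.Agent.S55.B.Recip.Datum
import Fermat.Agent.S55.Places.Unram

/-!
# S55 (B/Recip), task S55/R-Tame1: the local analysis at `q ≠ p`, part 1.

`χ_q = χ_n | D_q` is unramified (`Iq_le_ker_chi`), `D_q / ker χ_q ≅ ⟨ψ(q)⟩ ⊆ ℤ/p^n`.
* `index_ker_chiSub`: every `g ∈ D_q` acts on `μ_{p^(n+1)}` as a power of `q` (`map_root_of_mem_Dq`), i.e. as a
  power of a Frobenius `φ`, so `χ_n(D_q) = ⟨χ_n φ⟩ = ⟨ψ(q)⟩`.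
* `tame_of_cycCl_eq_zero`: if `⟨χ_q, c⟩ = 0` then (`cycCl_eq_zero_iff'`, `h90` from `(kdSub p (Dq q)).h90` or
  `LAux.Z1_le_B1_rsub_rsub` + `hilbert90`) `c = N y`, `y ∈ Fix (D_q ⊓ ker χ_n)`; `|N y| = |y|^I`, `I` the index
  (`uval_cores0`, elements of `D_q` are isometries); `|y| ∈ q^ℤ` because the extension is unramified
  (`exists_nrm_eq_of_unramified` with `W = Dq q`, `W' = Dq q ⊓ ker χ_n`, then `nrm_Qh`); so `I ∣ v(c)` and
  `v(c) • ψ(q) = 0` by `index_smul_psiNat`.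
-/

set_option autoImplicit false

noncomputable section

namespace Fermat.Agent.S55.Recip

open Places ExtCitation

variable {p : ℕ} [Fact p.Prime] {n : ℕ} {q : ℕ} [Fact q.Prime]

theorem chi_mem_zmultiples (hq : q ≠ p) {g : GQ} (hg : g ∈ Dq q) :
    ∃ j : ℕ, chi p n g = Multiplicative.ofAdd (j • psiNat p n q) := by
  obtain ⟨j, hj⟩ := map_root_of_mem_Dq (Chi_coprime (p := p) (n := n) hq) hg
  refine ⟨j, ?_⟩
  have h1 : ((cycN (p ^ (n + 1)) g : (ZMod (p ^ (n + 1)))ˣ) : ZMod (p ^ (n + 1))) =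
      ((q ^ j : ℕ) : ZMod _) := cycN_eq_of_forall _ g (q ^ j) hj
  have hqp : Nat.Coprime q p := (Nat.coprime_primes Fact.out Fact.out).2 hq
  rw [← psiNat_pow hqp, psiNat_eq_of_unit _ h1]
  rfl

theorem index_ker_chiSub (hq : q ≠ p) :
    (chiSub p n (Dq q)).ker.index = addOrderOf (psiNat p n q) := by
  have hr : (chiSub p n (Dq q)).range =
      Subgroup.zpowers (Multiplicative.ofAdd (psiNat p n q)) := by
    apply le_antisymm
    · rintro _ ⟨g, rfl⟩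
      obtain ⟨j, hj⟩ := chi_mem_zmultiples (p := p) (n := n) hq g.2
      refine Subgroup.mem_zpowers_iff.mpr ⟨j, ?_⟩
      rw [zpow_natCast, ← ofAdd_nsmul]
      exact hj.symm
    · rw [Subgroup.zpowers_le]
      obtain ⟨φ, hφ⟩ := exists_isFrob q
      exact ⟨⟨φ, hφ.1⟩, chi_frob hq hφ⟩
  rw [Subgroup.index_ker, hr, Nat.card_zpowers, orderOf_ofAdd_eq_addOrderOf]

/-- the local cyclic class at an arbitrary subgroup -/
abbrev cycW (p : ℕ) [Fact p.Prime] (n : ℕ) (W : Subgroup GQ) (c : ↥(H0 (rsub Gm W))) :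
    H2 (Lall.sub W) (rsub Gm W) :=
  cycCl (Lall.sub W) (rsub Gm W) (chiSub p n W) (chiSub_isLevel W) c

/-- norms from an unramified extension -/
theorem tame_of_cycCl_eq_zero (hq : q ≠ p) (c : ↥(H0 (rsub Gm (Dq q)))) (k : ℤ)
    (hk : nrm q (uval c) = (q : ℝ) ^ (-k)) (h : cycW p n (Dq q) c = 0) :
    k • psiNat p n q = 0 := by
  have h90 : Z1 ((Lall.sub (Dq q)).sub (chiSub p n (Dq q)).ker)
      (rsub (rsub Gm (Dq q)) (chiSub p n (Dq q)).ker) ≤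
      B1 (rsub (rsub Gm (Dq q)) (chiSub p n (Dq q)).ker) :=
    LAux.Z1_le_B1_rsub_rsub Gm (Dq q) _ (hilbert90 _)
  obtain ⟨y, hy⟩ := (cycCl_eq_zero_iff' (Lall.sub (Dq q)) (rsub Gm (Dq q)) (chiSub p n (Dq q))
    (chiSub_isLevel (Dq q)) h90 c).mp h
  have hNo : (Lall.sub (Dq q)).IsOpen (chiSub p n (Dq q)).ker := isOpen_ker_of_isLevel _ (chiSub_isLevel (Dq q))
  have hfin := (Lall.sub (Dq q)).finite_quotient hNo
  let _ := Fintype.ofFinite (↥(Dq q) ⧸ (chiSub p n (Dq q)).ker)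
  -- `|c| = |y|^I`
  have h1 : nrm q (uval c) = nrm q (uval y) ^ (chiSub p n (Dq q)).ker.index := by
    rw [← hy, uval_cores0, finprod_eq_prod_of_fintype, nrm_prod]
    simp only [nrm_map_of_mem_Dq q (SetLike.coe_mem _)]
    rw [Finset.prod_const, Finset.card_univ, Subgroup.index, Nat.card_eq_fintype_card]
  -- `|y| ∈ q^ℤ`
  have hyF : uval y ∈ Fix (Dq q ⊓ (chi p n).ker) := by
    rw [← map_ker_chiSub]; exact uval_mem_Fix' _ y
  obtain ⟨y', hy'F, hy'⟩ := exists_nrm_eq_of_unramified (q := q) (IsOpenIn.refl (Dq q))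
    (isOpenIn_Dq_inf_ker_chi (p := p) (n := n) (q := q))
    (inf_le_inf_left _ (Iq_le_ker_chi hq)) hyF
  have hy'0 : y' ≠ 0 := by
    intro h0
    rw [h0, nrm_zero] at hy'
    exact uval_ne_zero y ((nrm_eq_zero_iff q).mp hy'.symm)
  obtain ⟨j, hj⟩ := nrm_Qh q hy'F hy'0
  rw [hk, ← hy', hj, ← zpow_natCast, ← zpow_mul] at h1
  have hq1 : (1 : ℝ) < q := by exact_mod_cast (Fact.out : q.Prime).one_lt
  have h2 : -k = j * ((chiSub p n (Dq q)).ker.index : ℤ) := zpow_right_injective₀ (by linarith) hq1.ne' h1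
  have h3 : k = (-j) * ((chiSub p n (Dq q)).ker.index : ℤ) := by linarith
  rw [h3, mul_smul, natCast_zsmul, index_smul_psiNat hq, smul_zero]

/-- `q^I` is a norm (`cores0_res`) -/
theorem cycW_index_smul (c : ↥(H0 (rsub Gm (Dq q)))) :
    cycW p n (Dq q) ((chiSub p n (Dq q)).ker.index • c) = 0 := by
  have h90 : Z1 ((Lall.sub (Dq q)).sub (chiSub p n (Dq q)).ker)
      (rsub (rsub Gm (Dq q)) (chiSub p n (Dq q)).ker) ≤
      B1 (rsub (rsub Gm (Dq q)) (chiSub p n (Dq q)).ker) :=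
    LAux.Z1_le_B1_rsub_rsub Gm (Dq q) _ (hilbert90 _)
  refine (cycCl_eq_zero_iff' (Lall.sub (Dq q)) (rsub Gm (Dq q)) (chiSub p n (Dq q))
    (chiSub_isLevel (Dq q)) h90 _).mpr ?_
  exact ⟨_, cores0_res (Lall.sub (Dq q)) (rsub Gm (Dq q)) _ _ c⟩

end Fermat.Agent.S55.Recip

end
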